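import Fermat.Agent.PolyPartition.Lines
import Mathlib.Analysis.Complex.Basic

/-!
# Unit circles

In the coordinates `x + i y`, `x - i y` the unit circle about `γ` is the hyperbola
`(u - γ) (w - conj γ) = 1`, so a polynomial of degree `D` vanishes on at most `D` of them.
-/

set_option autoImplicit false

noncomputable section

namespace FA.PolyPartition

open Finset MvPolynomial Complex

/-- `x` lies on the unit circle about `c`. -/
def OnCircle (c x : Pt) : Prop := (x 0 - c 0) ^ 2 + (x 1 - c 1) ^ 2 = 1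

theorem circles_meet {x y : Pt} (hxy : x ≠ y) (S : Finset Pt)
    (hS : ∀ z ∈ S, OnCircle z x ∧ OnCircle z y) : S.card ≤ 2 := by
  classical
  obtain ⟨f, hf⟩ : ∃ f : Pt → ℝ, f = fun z =>
      (y 0 - x 0) * (2 * z 1 - x 1 - y 1) - (y 1 - x 1) * (2 * z 0 - x 0 - y 0) := ⟨_, rfl⟩
  obtain ⟨q, hq⟩ : ∃ q : ℝ, q = (y 0 - x 0) ^ 2 + (y 1 - x 1) ^ 2 := ⟨_, rfl⟩
  have hq0 : q ≠ 0 := by
    intro h
    have h0 : (y 0 - x 0) ^ 2 = 0 := by nlinarith [sq_nonneg (y 0 - x 0), sq_nonneg (y 1 - x 1)]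
    have h1 : (y 1 - x 1) ^ 2 = 0 := by nlinarith [sq_nonneg (y 0 - x 0), sq_nonneg (y 1 - x 1)]
    exact hxy (pt_ext (by linarith [pow_eq_zero_iff two_ne_zero |>.1 h0])
      (by linarith [pow_eq_zero_iff two_ne_zero |>.1 h1]))
  have hlin : ∀ z ∈ S, (y 0 - x 0) * (2 * z 0 - x 0 - y 0) +
      (y 1 - x 1) * (2 * z 1 - x 1 - y 1) = 0 := fun z hz => by
    have h1 := (hS z hz).1
    have h2 := (hS z hz).2
    unfold OnCircle at h1 h2
    linear_combination h1 - h2
  have hsq : ∀ z ∈ S, f z ^ 2 = q * (4 - q) := fun z hz => by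
    have h1 := (hS z hz).1
    have h2 := (hS z hz).2
    unfold OnCircle at h1 h2
    have h3 := hlin z hz
    have e : f z ^ 2 + ((y 0 - x 0) * (2 * z 0 - x 0 - y 0) +
        (y 1 - x 1) * (2 * z 1 - x 1 - y 1)) ^ 2 =
          q * ((2 * z 0 - x 0 - y 0) ^ 2 + (2 * z 1 - x 1 - y 1) ^ 2) := by rw [hf, hq]; ring
    rw [h3] at e
    have e2 : (2 * z 0 - x 0 - y 0) ^ 2 + (2 * z 1 - x 1 - y 1) ^ 2 = 4 - q := by
      rw [hq]; linear_combination 2 * h1 + 2 * h2
    rw [e2] at e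
    linarith
  have hinj : Set.InjOn f S := by
    intro z hz z' hz' e
    have h3 := hlin z (mem_coe.1 hz)
    have h4 := hlin z' (mem_coe.1 hz')
    rw [hf] at e
    simp only at e
    refine pt_ext (mul_left_cancel₀ hq0 ?_) (mul_left_cancel₀ hq0 ?_) <;> rw [hq]
    · linear_combination ((y 0 - x 0) / 2) * h3 - ((y 0 - x 0) / 2) * h4 - ((y 1 - x 1) / 2) * e
    · linear_combination ((y 1 - x 1) / 2) * h3 - ((y 1 - x 1) / 2) * h4 + ((y 0 - x 0) / 2) * e
  rcases S.eq_empty_or_nonempty with rfl | ⟨z₀, hz₀⟩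
  · simp
  refine le_trans (card_le_card_of_injOn f (t := {f z₀, -f z₀}) (fun z hz => ?_) hinj) card_le_two
  rcases sq_eq_sq_iff_eq_or_eq_neg.1 ((hsq z hz).trans (hsq z₀ hz₀).symm) with h | h <;> simp [h]

/-- `c + (± (1 - t²), 2 t) / (1 + t²)`. -/
def circParam (c : Pt) (σ : ℝ) : Polynomial ℝ × Polynomial ℝ :=
  (Polynomial.C (c 0) * (1 + Polynomial.X ^ 2) + Polynomial.C σ * (1 - Polynomial.X ^ 2),
    Polynomial.C (c 1) * (1 + Polynomial.X ^ 2) + 2 * Polynomial.X)

/-- The point of parameter `t`. -/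
def circPt (c : Pt) (σ t : ℝ) : Pt :=
  paramPt (circParam c σ).1 (circParam c σ).2 (1 + Polynomial.X ^ 2) t

theorem circParam_deg (c : Pt) (σ : ℝ) : (circParam c σ).1.natDegree ≤ 2 ∧
    (circParam c σ).2.natDegree ≤ 2 ∧ (1 + Polynomial.X ^ 2 : Polynomial ℝ).natDegree ≤ 2 := by
  refine ⟨?_, ?_, ?_⟩ <;> (try simp only [circParam]) <;> compute_degree!

theorem one_add_sq_pos (t : ℝ) : 0 < (1 + Polynomial.X ^ 2 : Polynomial ℝ).eval t := by
  simp; positivity

theorem circPt_coord (c : Pt) (σ t : ℝ) :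
    circPt c σ t 0 = c 0 + σ * (1 - t ^ 2) / (1 + t ^ 2) ∧
      circPt c σ t 1 = c 1 + 2 * t / (1 + t ^ 2) := by
  have : (1 : ℝ) + t ^ 2 ≠ 0 := by positivity
  constructor <;> simp [circPt, paramPt, circParam] <;> field_simp

theorem onCircle_cases {c x : Pt} (h : OnCircle c x) :
    x = ![c 0 - 1, c 1] ∨ ∃ t, circPt c 1 t = x := by
  unfold OnCircle at h
  by_cases h0 : 1 + (x 0 - c 0) = 0
  · left
    have h1 : x 1 - c 1 = 0 := by
      have : (x 1 - c 1) ^ 2 = 0 := by
        have : x 0 - c 0 = -1 := by linarith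
        rw [this] at h; linarith
      exact (pow_eq_zero_iff two_ne_zero).1 this
    exact pt_ext (by simp; linarith) (by simp; linarith)
  · refine Or.inr ⟨(x 1 - c 1) / (1 + (x 0 - c 0)), ?_⟩
    obtain ⟨a, ha⟩ : ∃ a, a = x 0 - c 0 := ⟨_, rfl⟩
    obtain ⟨b, hb⟩ : ∃ b, b = x 1 - c 1 := ⟨_, rfl⟩
    rw [← ha, ← hb] at h
    rw [← ha, ← hb]
    rw [← ha] at h0
    have hden : 1 + (b / (1 + a)) ^ 2 = 2 / (1 + a) := by
      field_simp; linear_combination h
    obtain ⟨e0, e1⟩ := circPt_coord c 1 (b / (1 + a))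
    refine pt_ext ?_ ?_
    · rw [e0, hden, show x 0 = c 0 + a by linarith]
      field_simp
      linear_combination -h
    · rw [e1, hden, show x 1 = c 1 + b by linarith]
      field_simp

theorem circle_zeros (P : Poly2) (c : Pt) :
    (∀ x, OnCircle c x → eval x P = 0) ∨
      ∀ S : Finset Pt, (∀ x ∈ S, OnCircle c x ∧ eval x P = 0) →
        S.card ≤ 2 * P.totalDegree + 2 := by
  classical
  obtain ⟨h1, h2, h3⟩ := circParam_deg c 1
  rcases zeros_along h1 h2 h3 one_add_sq_pos P with h | h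
  · refine Or.inl fun x hx => ?_
    rcases onCircle_cases hx with rfl | ⟨t, rfl⟩
    · -- the point missed by the first parametrisation
      obtain ⟨g1, g2, g3⟩ := circParam_deg c (-1)
      rcases zeros_along g1 g2 g3 one_add_sq_pos P with h' | h'
      · have := h' 0
        rwa [show paramPt (circParam c (-1)).1 (circParam c (-1)).2 (1 + Polynomial.X ^ 2) 0 =
          ![c 0 - 1, c 1] from pt_ext (by simp [paramPt, circParam]; ring)
            (by simp [paramPt, circParam])] at this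
      · exfalso
        have hz : ∀ k : ℕ, eval (circPt c (-1) ((k : ℝ) + 1)) P = 0 := by
          intro k
          have hk : ((k : ℝ) + 1) ≠ 0 := by positivity
          rw [show circPt c (-1) ((k : ℝ) + 1) = circPt c 1 (((k : ℝ) + 1)⁻¹) from ?_]
          · exact h _
          obtain ⟨a0, a1⟩ := circPt_coord c (-1) ((k : ℝ) + 1)
          obtain ⟨b0, b1⟩ := circPt_coord c 1 (((k : ℝ) + 1)⁻¹)
          refine pt_ext ?_ ?_
          · rw [a0, b0]; field_simp; ring
          · rw [a1, b1]; field_simp; ring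
        have hinj : Function.Injective fun k : ℕ => circPt c (-1) ((k : ℝ) + 1) := by
          intro i j e
          have e0 := congrFun e 0
          simp only at e0
          rw [(circPt_coord c (-1) _).1, (circPt_coord c (-1) _).1, add_right_inj,
            div_eq_div_iff (by positivity) (by positivity)] at e0
          have h5 : ((i : ℝ) + 1) ^ 2 = ((j : ℝ) + 1) ^ 2 := by linarith
          have h6 := (pow_left_inj₀ (by positivity) (by positivity) two_ne_zero).1 h5
          exact Nat.cast_injective (R := ℝ) (by linarith)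
        have := h' ((range (2 * P.totalDegree + 1)).image fun k : ℕ => circPt c (-1) ((k : ℝ) + 1))
          fun x hx => by
            obtain ⟨k, -, rfl⟩ := mem_image.1 hx
            exact ⟨hz k, _, rfl⟩
        rw [card_image_of_injective _ hinj, card_range] at this
        omega
    · exact h t
  · refine Or.inr fun S hS => ?_
    have h4 := h (S.erase ![c 0 - 1, c 1]) fun x hx => ⟨(hS x (mem_of_mem_erase hx)).2,
      (onCircle_cases (hS x (mem_of_mem_erase hx)).1).resolve_left (ne_of_mem_erase hx)⟩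
    have := pred_card_le_card_erase (s := S) (a := (![c 0 - 1, c 1] : Pt))
    omega

/-- The complex number `c 0 + c 1 i`. -/
def centre (c : Pt) : ℂ := (c 0 : ℂ) + (c 1 : ℂ) * I

theorem conj_centre (c : Pt) : (starRingEnd ℂ) (centre c) = (c 0 : ℂ) - (c 1 : ℂ) * I := by
  simp [centre, Complex.conj_I]; ring

theorem half_sum_coord (c : Pt) (z z' : ℂ) :
    (centre c + z + ((starRingEnd ℂ) (centre c) + z')) / 2 = (c 0 : ℂ) + (z + z') / 2 ∧
      (centre c + z - ((starRingEnd ℂ) (centre c) + z')) / (2 * I) =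
        (c 1 : ℂ) - I * (z - z') / 2 := by
  rw [conj_centre, centre]
  refine ⟨by ring, ?_⟩
  rw [div_eq_iff (mul_ne_zero two_ne_zero Complex.I_ne_zero)]
  linear_combination (z - z') * Complex.I_sq

/-- `k` as a point of the unit circle. -/
def unitPt (k : ℕ) : ℂ := (((1 - (k : ℝ) ^ 2) / (1 + (k : ℝ) ^ 2) : ℝ) : ℂ) +
  ((2 * (k : ℝ) / (1 + (k : ℝ) ^ 2) : ℝ) : ℂ) * I

theorem unitPt_injective : Function.Injective unitPt := by
  intro i j e
  have e0 := congrArg Complex.re e
  simp only [unitPt, Complex.add_re, Complex.mul_re, Complex.ofReal_re, Complex.ofReal_im,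
    Complex.I_re, Complex.I_im, mul_zero, zero_mul, sub_zero, add_zero] at e0
  rw [div_eq_div_iff (by positivity) (by positivity)] at e0
  have h5 : (i : ℝ) ^ 2 = (j : ℝ) ^ 2 := by linarith
  exact Nat.cast_injective ((pow_left_inj₀ (Nat.cast_nonneg' i) (Nat.cast_nonneg' j)
    two_ne_zero).1 h5)

/-- **A polynomial vanishing on a circle vanishes on its complex points.** -/
theorem eval_complex_circle (P : Poly2) (c : Pt) (hc : ∀ x, OnCircle c x → eval x P = 0) {s : ℂ}
    (hs : s ≠ 0) : eval₂ Complex.ofRealHom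
      ![(centre c + s + ((starRingEnd ℂ) (centre c) + s⁻¹)) / 2,
        (centre c + s - ((starRingEnd ℂ) (centre c) + s⁻¹)) / (2 * I)] P = 0 := by
  obtain ⟨a, ha⟩ : ∃ a : Polynomial ℂ, a = Polynomial.C (c 0 : ℂ) * (2 * Polynomial.X) +
      (Polynomial.X ^ 2 + 1) := ⟨_, rfl⟩
  obtain ⟨b, hb⟩ : ∃ b : Polynomial ℂ, b = Polynomial.C (c 1 : ℂ) * (2 * Polynomial.X) +
      Polynomial.C (-I) * (Polynomial.X ^ 2 - 1) := ⟨_, rfl⟩
  obtain ⟨g, hg⟩ : ∃ g, g = homogAlong Complex.ofRealHom a b (2 * Polynomial.X) P.totalDegree P :=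
    ⟨_, rfl⟩
  have hge : ∀ z : ℂ, z ≠ 0 → g.eval z = (2 * z) ^ P.totalDegree *
      eval₂ Complex.ofRealHom ![(c 0 : ℂ) + (z + z⁻¹) / 2, (c 1 : ℂ) - I * (z - z⁻¹) / 2] P := by
    intro z hz
    rw [hg, eval_homogAlong le_rfl (by simp [hz]),
      show Polynomial.eval z (2 * Polynomial.X : Polynomial ℂ) = 2 * z by simp,
      show a.eval z / (2 * z) = (c 0 : ℂ) + (z + z⁻¹) / 2 by rw [ha]; simp; field_simp,
      show b.eval z / (2 * z) = (c 1 : ℂ) - I * (z - z⁻¹) / 2 by
        rw [hb]; simp; field_simp; ring]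
  have hg0 : g = 0 := by
    refine Polynomial.eq_zero_of_infinite_isRoot g
      (Set.infinite_of_injective_forall_mem unitPt_injective fun k => ?_)
    obtain ⟨A, hA⟩ : ∃ A : ℝ, A = (1 - (k : ℝ) ^ 2) / (1 + (k : ℝ) ^ 2) := ⟨_, rfl⟩
    obtain ⟨B, hB⟩ : ∃ B : ℝ, B = 2 * (k : ℝ) / (1 + (k : ℝ) ^ 2) := ⟨_, rfl⟩
    have hAB : A ^ 2 + B ^ 2 = 1 := by rw [hA, hB]; field_simp; ring
    have hzk : unitPt k = (A : ℂ) + (B : ℂ) * I := by rw [unitPt, hA, hB]
    have hinv : (unitPt k)⁻¹ = (A : ℂ) - (B : ℂ) * I := by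
      refine inv_eq_of_mul_eq_one_right ?_
      rw [hzk]
      have : ((A ^ 2 + B ^ 2 : ℝ) : ℂ) = 1 := by rw [hAB]; simp
      push_cast at this
      linear_combination this - (B : ℂ) ^ 2 * Complex.I_sq
    have hne : unitPt k ≠ 0 := by
      intro h0
      have h1 : ((A : ℂ) + (B : ℂ) * I) * ((A : ℂ) - (B : ℂ) * I) = 1 := by
        have : ((A ^ 2 + B ^ 2 : ℝ) : ℂ) = 1 := by rw [hAB]; simp
        push_cast at this
        linear_combination this - (B : ℂ) ^ 2 * Complex.I_sq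
      rw [← hzk, h0, zero_mul] at h1
      exact zero_ne_one h1
    show g.IsRoot (unitPt k)
    rw [Polynomial.IsRoot, hge _ hne]
    refine mul_eq_zero_of_right _ ?_
    rw [hinv, hzk, show (![(c 0 : ℂ) + ((A : ℂ) + B * I + ((A : ℂ) - B * I)) / 2,
      (c 1 : ℂ) - I * ((A : ℂ) + B * I - ((A : ℂ) - B * I)) / 2] : Fin 2 → ℂ) =
        Complex.ofRealHom ∘ (![c 0 + A, c 1 + B] : Pt) by
      funext i
      fin_cases i
      · simp
      · simp; linear_combination -(B : ℂ) * Complex.I_sq]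
    rw [← MvPolynomial.eval₂_comp,
      show eval (![c 0 + A, c 1 + B] : Pt) P = 0 from hc _ (by simpa [OnCircle] using hAB),
      map_zero]
  have := hge s hs
  rw [hg0, Polynomial.eval_zero] at this
  rw [(half_sum_coord c s s⁻¹).1, (half_sum_coord c s s⁻¹).2]
  exact (mul_eq_zero.1 this.symm).resolve_left (pow_ne_zero _ (mul_ne_zero two_ne_zero hs))

theorem circles_full (P : Poly2) (L : Finset Pt) (hP : P ≠ 0)
    (hL : ∀ c ∈ L, ∀ x, OnCircle c x → eval x P = 0) : L.card ≤ 2 * P.totalDegree := by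
  classical
  obtain ⟨x, hx⟩ := exists_eval_ne_zero hP
  obtain ⟨φ, hφ⟩ : ∃ φ : ℝ →+* ℂ, φ = Complex.ofRealHom := ⟨_, rfl⟩
  obtain ⟨Q, hQ⟩ : ∃ Q : Polynomial ℂ → Polynomial ℂ → Polynomial ℂ, Q = fun u w =>
      aeval ![(u + w) * Polynomial.C (1 / 2), (u - w) * Polynomial.C (1 / (2 * I))]
        (MvPolynomial.map φ P) := ⟨_, rfl⟩
  have hQev : ∀ u w t, (Q u w).eval t = eval₂ φ
      ![(u.eval t + w.eval t) / 2, (u.eval t - w.eval t) / (2 * I)] P := by
    intro u w t
    rw [hQ]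
    simp only
    rw [aeval_def, eval₂_map]
    show (Polynomial.evalRingHom t) (eval₂ _ _ P) = _
    rw [eval₂_comp_left]
    congr 1
    · ext r; simp
    · funext i; fin_cases i <;> simp [div_eq_mul_inv]
  have hQdeg : ∀ u w : Polynomial ℂ, u.natDegree ≤ 1 → w.natDegree ≤ 1 →
      (Q u w).natDegree ≤ P.totalDegree := by
    intro u w hu hw
    rw [hQ]
    refine (aeval_natDegree_le (MvPolynomial.map φ P) (m := P.totalDegree) (n := 1) ?_ _
      fun i => ?_).trans (le_of_eq (mul_one _))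
    · exact Finset.sup_mono (MvPolynomial.support_map_subset φ P)
    · fin_cases i <;>
        simp only [Fin.zero_eta, Fin.mk_one, Matrix.cons_val_zero, Matrix.cons_val_one] <;>
        refine (Polynomial.natDegree_mul_C_le _ _).trans ?_
      · exact (Polynomial.natDegree_add_le _ _).trans (max_le hu hw)
      · exact (Polynomial.natDegree_sub_le _ _).trans (max_le hu hw)
  obtain ⟨u₁, hu₁⟩ : ∃ z : ℂ, z = (x 0 : ℂ) + (x 1 : ℂ) * I := ⟨_, rfl⟩
  obtain ⟨w₁, hw₁⟩ : ∃ z : ℂ, z = (x 0 : ℂ) - (x 1 : ℂ) * I := ⟨_, rfl⟩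
  have hbase : eval₂ φ ![(u₁ + w₁) / 2, (u₁ - w₁) / (2 * I)] P ≠ 0 := by
    rw [show (![(u₁ + w₁) / 2, (u₁ - w₁) / (2 * I)] : Fin 2 → ℂ) = fun i => φ (x i) by
      funext i
      fin_cases i <;> simp [hu₁, hw₁, hφ] <;> field_simp <;> ring]
    show eval₂ φ (φ ∘ x) P ≠ 0
    rw [← MvPolynomial.eval₂_comp]
    exact (map_ne_zero φ).2 hx
  obtain ⟨H, hH⟩ : ∃ H, H = Q Polynomial.X (Polynomial.C w₁) := ⟨_, rfl⟩
  have hH0 : H ≠ 0 := fun h => hbase (by
    have := hQev Polynomial.X (Polynomial.C w₁) u₁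
    rw [← hH, h, Polynomial.eval_zero, Polynomial.eval_X, Polynomial.eval_C] at this
    exact this.symm)
  obtain ⟨γ, hγ⟩ : ∃ γ : Pt → ℂ, γ = centre := ⟨_, rfl⟩
  have hγinj : ∀ c c', γ c = γ c' → c = c' := fun c c' h => by
    rw [hγ] at h
    simp only [centre] at h
    have h0 := congrArg Complex.re h
    have h1 := congrArg Complex.im h
    simp at h0 h1
    exact pt_ext h0 h1
  obtain ⟨G, hG⟩ : ∃ G : Pt × Pt → Polynomial ℂ, G = fun p =>
      Polynomial.C ((starRingEnd ℂ) (γ p.1) - (starRingEnd ℂ) (γ p.2)) *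
        (Polynomial.X - Polynomial.C (γ p.1)) * (Polynomial.X - Polynomial.C (γ p.2)) +
        Polynomial.C (γ p.1 - γ p.2) := ⟨_, rfl⟩
  obtain ⟨bad, hbad⟩ : ∃ bad : Finset ℂ, bad = H.roots.toFinset ∪ L.image γ ∪
      (L ×ˢ L).biUnion fun p => (G p).roots.toFinset := ⟨_, rfl⟩
  obtain ⟨u, hu⟩ := Infinite.exists_notMem_finset bad
  rw [hbad, mem_union, mem_union, not_or, not_or] at hu
  obtain ⟨⟨hu1, hu2⟩, hu3⟩ := hu
  obtain ⟨W, hW⟩ : ∃ W, W = Q (Polynomial.C u) Polynomial.X := ⟨_, rfl⟩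
  have hW0 : W ≠ 0 := fun h => hu1 (Multiset.mem_toFinset.2 ((Polynomial.mem_roots hH0).2 (by
    have h1 := hQev (Polynomial.C u) Polynomial.X w₁
    have h2 := hQev Polynomial.X (Polynomial.C w₁) u
    simp only [← hW, ← hH, h, Polynomial.eval_zero, Polynomial.eval_X, Polynomial.eval_C] at h1 h2
    rw [Polynomial.IsRoot, h2]
    exact h1.symm)))
  refine le_trans (card_le_card_of_injOn (fun c => (starRingEnd ℂ) (γ c) + (u - γ c)⁻¹)
    (t := W.roots.toFinset) (fun c hc => ?_) fun c hc c' hc' e => ?_)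
    (((Multiset.toFinset_card_le _).trans ((Polynomial.card_roots' W).trans
      (hW ▸ hQdeg _ _ (by simp) (by simp)))).trans (Nat.le_mul_of_pos_left _ two_pos))
  · refine Multiset.mem_toFinset.2 ((Polynomial.mem_roots hW0).2 ?_)
    simp only
    rw [Polynomial.IsRoot, hW, hQev, Polynomial.eval_C, Polynomial.eval_X]
    have h1 := eval_complex_circle P c (hL c hc) (s := u - γ c)
      (sub_ne_zero.2 fun h => hu2 (h ▸ mem_image_of_mem γ hc))
    rw [hγ, hφ] at *
    simpa only [add_sub_cancel] using h1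
  · by_contra hne
    have hne' : γ c - γ c' ≠ 0 := sub_ne_zero.2 fun h => hne (hγinj c c' h)
    have hGne : G (c, c') ≠ 0 := fun h => hne' (by
      have := congrArg (Polynomial.eval (γ c)) h
      simpa [hG] using this)
    refine hu3 (mem_biUnion.2 ⟨(c, c'), mem_product.2 ⟨hc, hc'⟩,
      Multiset.mem_toFinset.2 ((Polynomial.mem_roots hGne).2 ?_)⟩)
    have h1 : u - γ c ≠ 0 := sub_ne_zero.2 fun h => hu2 (h ▸ mem_image_of_mem γ hc)
    have h2 : u - γ c' ≠ 0 := sub_ne_zero.2 fun h => hu2 (h ▸ mem_image_of_mem γ hc')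
    simp only at e
    simp only [hG, Polynomial.IsRoot, Polynomial.eval_add, Polynomial.eval_mul, Polynomial.eval_sub,
      Polynomial.eval_C, Polynomial.eval_X]
    rw [show (starRingEnd ℂ) (γ c) - (starRingEnd ℂ) (γ c') = (u - γ c')⁻¹ - (u - γ c)⁻¹ by
      linear_combination e]
    field_simp
    ring

/-- Unit circles form a curve family. -/
theorem circleFamily : CurveFamily OnCircle 2 2 where
  pair L x y _ hxy := circles_meet hxy _ fun z hz => ⟨(mem_filter.1 hz).2.1, (mem_filter.1 hz).2.2⟩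
  meet S c c' _ hne := circles_meet hne _ fun z hz => by
    have h1 := (mem_filter.1 hz).2.1
    have h2 := (mem_filter.1 hz).2.2
    unfold OnCircle at h1 h2 ⊢
    constructor <;> linarith
  full := circles_full
  zeros P c S hS := (circle_zeros P c).imp_right fun h => h S hS
  cells {j} P c S hS := by
    classical
    obtain ⟨h1, h2, h3⟩ := circParam_deg c 1
    obtain ⟨q, hq⟩ : ∃ q : Pt, q = ![c 0 - 1, c 1] := ⟨_, rfl⟩
    have h4 := signs_along h1 h2 h3 one_add_sq_pos P (S.erase q) fun x hx =>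
      ⟨(hS x (mem_of_mem_erase hx)).2, (onCircle_cases (hS x (mem_of_mem_erase hx)).1).resolve_left
        (hq ▸ ne_of_mem_erase hx)⟩
    have h5 : (S.image (signs P)).card ≤ ((S.erase q).image (signs P)).card + 1 := by
      refine (card_le_card (t := insert (signs P q) ((S.erase q).image (signs P))) fun σ hσ => ?_).trans
        (card_insert_le _ _)
      obtain ⟨x, hx, rfl⟩ := mem_image.1 hσ
      by_cases hxq : x = q
      · exact hxq ▸ mem_insert_self _ _
      · exact mem_insert_of_mem (mem_image_of_mem _ (mem_erase.2 ⟨hxq, hx⟩))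
    omega

end FA.PolyPartition
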