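import Fermat.Agent.PolyPartition.Partition
import Mathlib.Analysis.SpecialFunctions.Pow.Real

/-!
# Incidences by partitioning

For a family of curves with the intersection properties of lines, `m` points and `n` curves have
`O ((m n) ^ (2/3) + m + n)` incidences: points in the cells are counted by the trivial bound, points
on the partitioning curve by degree.
-/

set_option autoImplicit false

noncomputable section

namespace FA.PolyPartition

open Finset MvPolynomial

variable {κ : Type*}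

/-- A family of plane curves: two points lie on at most `s` of them and two of them meet in at
most `s` points; the zero set of a polynomial of degree `D` contains at most `e D` of them and
meets each other one at most `e D + e` times; they cross at most `e D + e` cells. -/
structure CurveFamily (Inc : κ → Pt → Prop) (s e : ℕ) : Prop where
  pair : ∀ (L : Finset κ) (x y : Pt) [DecidablePred fun l => Inc l x ∧ Inc l y], x ≠ y →
    (L.filter fun l => Inc l x ∧ Inc l y).card ≤ s
  meet : ∀ (S : Finset Pt) (l l' : κ) [DecidablePred fun x => Inc l x ∧ Inc l' x], l ≠ l' →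
    (S.filter fun x => Inc l x ∧ Inc l' x).card ≤ s
  full : ∀ (P : Poly2) (L : Finset κ), P ≠ 0 → (∀ l ∈ L, ∀ x, Inc l x → eval x P = 0) →
    L.card ≤ e * P.totalDegree
  zeros : ∀ (P : Poly2) (l : κ) (S : Finset Pt), (∀ x ∈ S, Inc l x ∧ eval x P = 0) →
    (∀ x, Inc l x → eval x P = 0) ∨ S.card ≤ e * P.totalDegree + e
  cells : ∀ {j : ℕ} (P : Fin j → Poly2) (l : κ) (S : Finset Pt),
    (∀ x ∈ S, Inc l x ∧ ∀ i, eval x (P i) ≠ 0) →
      (S.image (signs P)).card ≤ e * ∑ i, (P i).totalDegree + e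

open Classical in
/-- The number of incidences. -/
def inc (Inc : κ → Pt → Prop) (S : Finset Pt) (L : Finset κ) : ℕ :=
  ∑ l ∈ L, (S.filter fun x => Inc l x).card

variable {Inc : κ → Pt → Prop} {s e : ℕ}

open Classical in
theorem inc_comm (S : Finset Pt) (L : Finset κ) :
    inc Inc S L = ∑ x ∈ S, (L.filter fun l => Inc l x).card := by
  simp only [inc, card_filter]
  rw [sum_comm]

theorem le_one_add_offDiag (r : ℕ) : r ≤ 1 + (r * r - r) := by
  rcases Nat.lt_or_ge r 2 with h | h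
  · omega
  · have := Nat.mul_le_mul_right r h
    omega

theorem inc_le_points (h : CurveFamily Inc s e) (S : Finset Pt) (L : Finset κ) :
    inc Inc S L ≤ S.card + s * L.card ^ 2 := by
  classical
  rw [inc_comm]
  have h1 : ∑ x ∈ S, (L.filter fun l => Inc l x).offDiag.card ≤ s * L.card ^ 2 := by
    calc ∑ x ∈ S, (L.filter fun l => Inc l x).offDiag.card
        = ∑ x ∈ S, ∑ p ∈ L.offDiag, if Inc p.1 x ∧ Inc p.2 x then 1 else 0 := by
          refine sum_congr rfl fun x _ => ?_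
          rw [sum_boole, Nat.cast_id]
          congr 1
          ext p
          simp only [mem_offDiag, mem_filter]
          tauto
      _ = ∑ p ∈ L.offDiag, (S.filter fun x => Inc p.1 x ∧ Inc p.2 x).card := by
          rw [sum_comm]; simp only [card_filter]
      _ ≤ L.offDiag.card * s := by
          refine (sum_le_card_nsmul _ _ s fun p hp => h.meet S p.1 p.2 (mem_offDiag.1 hp).2.2).trans ?_
          rw [smul_eq_mul]
      _ ≤ _ := by
          rw [offDiag_card, mul_comm, sq]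
          exact Nat.mul_le_mul_left _ (Nat.sub_le _ _)
  calc ∑ x ∈ S, (L.filter fun l => Inc l x).card
      ≤ ∑ x ∈ S, (1 + (L.filter fun l => Inc l x).offDiag.card) :=
        sum_le_sum fun x _ => by rw [offDiag_card]; exact le_one_add_offDiag _
    _ ≤ _ := by rw [sum_add_distrib, sum_const, smul_eq_mul, mul_one]; omega

theorem inc_le_curves (h : CurveFamily Inc s e) (S : Finset Pt) (L : Finset κ) :
    inc Inc S L ≤ L.card + s * S.card ^ 2 := by
  classical
  have h1 : ∑ l ∈ L, (S.filter fun x => Inc l x).offDiag.card ≤ s * S.card ^ 2 := by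
    calc ∑ l ∈ L, (S.filter fun x => Inc l x).offDiag.card
        = ∑ l ∈ L, ∑ p ∈ S.offDiag, if Inc l p.1 ∧ Inc l p.2 then 1 else 0 := by
          refine sum_congr rfl fun x _ => ?_
          rw [sum_boole, Nat.cast_id]
          congr 1
          ext p
          simp only [mem_offDiag, mem_filter]
          tauto
      _ = ∑ p ∈ S.offDiag, (L.filter fun l => Inc l p.1 ∧ Inc l p.2).card := by
          rw [sum_comm]; simp only [card_filter]
      _ ≤ S.offDiag.card * s := by
          refine (sum_le_card_nsmul _ _ s fun p hp => h.pair L p.1 p.2 (mem_offDiag.1 hp).2.2).trans ?_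
          rw [smul_eq_mul]
      _ ≤ _ := by
          rw [offDiag_card, mul_comm, sq]
          exact Nat.mul_le_mul_left _ (Nat.sub_le _ _)
  calc inc Inc S L ≤ ∑ l ∈ L, (1 + (S.filter fun x => Inc l x).offDiag.card) :=
        sum_le_sum fun l _ => by rw [offDiag_card]; exact le_one_add_offDiag _
    _ ≤ _ := by rw [sum_add_distrib, sum_const, smul_eq_mul, mul_one]; omega

/-- **The bound at a fixed degree.** -/
theorem inc_le_partition (h : CurveFamily Inc s e) (S : Finset Pt) (L : Finset κ) (k : ℕ) :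
    4 ^ k * inc Inc S L ≤ 4 ^ k * (2 * L.card * (6 * e * 2 ^ k + e) + S.card +
      s * (6 * e * 2 ^ k) ^ 2) + s * S.card ^ 2 := by
  classical
  obtain ⟨P, hP, hdeg, hcell⟩ := exists_partition S k
  obtain ⟨T, hT⟩ : ∃ T : Poly2, T = ∏ i, P i := ⟨_, rfl⟩
  have hT0 : T ≠ 0 := hT ▸ prod_ne_zero_iff.2 fun i _ => hP i
  have hTdeg : T.totalDegree ≤ 6 * 2 ^ k := hT ▸ (totalDegree_finsetProd _ _).trans hdeg
  have hTzero : ∀ x, eval x T = 0 ↔ ¬ ∀ i, eval x (P i) ≠ 0 := fun x => by
    simp [hT, map_prod, prod_eq_zero_iff]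
  have heD : e * T.totalDegree ≤ 6 * e * 2 ^ k :=
    (Nat.mul_le_mul_left e hTdeg).trans (le_of_eq (by ring))
  obtain ⟨Z, hZ⟩ : ∃ Z, Z = S.filter fun x => eval x T = 0 := ⟨_, rfl⟩
  obtain ⟨F, hF⟩ : ∃ F, F = L.filter fun l => ∀ x, Inc l x → eval x T = 0 := ⟨_, rfl⟩
  have hcells : ∑ σ, (L.filter fun l => ∃ x ∈ cellPts P S σ, Inc l x).card ≤
      L.card * (6 * e * 2 ^ k + e) := by
    simp only [card_filter]
    rw [sum_comm]
    refine (sum_le_card_nsmul _ _ (6 * e * 2 ^ k + e) fun l _ => ?_).trans (le_of_eq (smul_eq_mul ..))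
    rw [sum_boole, Nat.cast_id]
    calc _ ≤ ((S.filter fun x => Inc l x ∧ ∀ i, eval x (P i) ≠ 0).image (signs P)).card := by
          refine card_le_card fun σ hσ => ?_
          obtain ⟨x, hx, hlx⟩ := (mem_filter.1 hσ).2
          obtain ⟨h1, h2, h3⟩ := mem_cellPts.1 hx
          exact mem_image.2 ⟨x, mem_filter.2 ⟨h1, hlx, h2⟩, h3⟩
      _ ≤ e * ∑ i, (P i).totalDegree + e :=
          h.cells P l _ fun x hx => (mem_filter.1 hx).2
      _ ≤ _ := Nat.add_le_add_right ((Nat.mul_le_mul_left e hdeg).trans (le_of_eq (by ring))) e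
  have hsplit : inc Inc S L = inc Inc Z L + ∑ σ, inc Inc (cellPts P S σ)
      (L.filter fun l => ∃ x ∈ cellPts P S σ, Inc l x) := by
    have hres : ∀ σ, inc Inc (cellPts P S σ) (L.filter fun l => ∃ x ∈ cellPts P S σ, Inc l x) =
        inc Inc (cellPts P S σ) L := fun σ => by
      refine sum_subset (filter_subset _ _) fun l hl hl' => ?_
      rw [card_eq_zero, filter_eq_empty_iff]
      exact fun x hx hlx => hl' (mem_filter.2 ⟨hl, x, hx, hlx⟩)
    rw [sum_congr rfl fun σ _ => hres σ]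
    simp only [inc]
    rw [sum_comm, ← sum_add_distrib]
    refine sum_congr rfl fun l _ => ?_
    rw [← card_filter_add_card_filter_not (fun x => eval x T = 0)]
    congr 1
    · congr 1; ext x; simp [hZ]; tauto
    · rw [card_eq_sum_card_fiberwise (f := signs P) (t := univ) fun x _ => mem_univ _]
      refine sum_congr rfl fun σ _ => ?_
      congr 1
      ext x
      simp only [mem_filter, mem_cellPts, hTzero, not_not]
      tauto
  have hnonfull : inc Inc Z (L.filter fun l => ¬∀ x, Inc l x → eval x T = 0) ≤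
      L.card * (6 * e * 2 ^ k + e) := by
    refine (sum_le_card_nsmul _ _ (6 * e * 2 ^ k + e) fun l hl => ?_).trans ?_
    · rcases h.zeros T l (Z.filter fun x => Inc l x) fun x hx =>
        ⟨(mem_filter.1 hx).2, (mem_filter.1 (hZ ▸ (mem_filter.1 hx).1 :)).2⟩ with hh | hh
      · exact absurd hh (mem_filter.1 hl).2
      · exact hh.trans (Nat.add_le_add_right heD e)
    · rw [smul_eq_mul]; exact Nat.mul_le_mul_right _ (card_filter_le _ _)
  have hzero : inc Inc Z L ≤ L.card * (6 * e * 2 ^ k + e) + S.card + s * (6 * e * 2 ^ k) ^ 2 := by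
    have hFcard : F.card ≤ 6 * e * 2 ^ k := (h.full T F hT0 fun l hl =>
      (mem_filter.1 (hF ▸ hl :)).2).trans heD
    have h1 : inc Inc Z F ≤ S.card + s * (6 * e * 2 ^ k) ^ 2 :=
      (inc_le_points h Z F).trans (Nat.add_le_add (card_le_card (hZ ▸ filter_subset _ _))
        (Nat.mul_le_mul_left s (Nat.pow_le_pow_left hFcard 2)))
    have h2 : inc Inc Z L = inc Inc Z F +
        inc Inc Z (L.filter fun l => ¬∀ x, Inc l x → eval x T = 0) := by
      rw [hF]; exact (sum_filter_add_sum_filter_not L _ _).symm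
    omega
  have hsq : 4 ^ k * ∑ σ, (cellPts P S σ).card ^ 2 ≤ S.card ^ 2 := by
    have hle : ∑ σ, (cellPts P S σ).card ≤ S.card := by
      rw [← card_biUnion fun σ _ τ _ hne => disjoint_left.2 fun x hx hx' =>
        hne ((mem_cellPts.1 hx).2.2.symm.trans (mem_cellPts.1 hx').2.2)]
      exact card_le_card (biUnion_subset.2 fun σ _ x hx => (mem_cellPts.1 hx).1)
    calc 4 ^ k * ∑ σ, (cellPts P S σ).card ^ 2
        ≤ ∑ σ, S.card * (cellPts P S σ).card := by
          rw [mul_sum]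
          refine sum_le_sum fun σ _ => ?_
          rw [sq, ← mul_assoc]
          exact Nat.mul_le_mul_right _ (hcell σ)
      _ ≤ S.card * S.card := by rw [← mul_sum]; exact Nat.mul_le_mul_left _ hle
      _ = _ := (sq _).symm
  rw [hsplit]
  calc 4 ^ k * (inc Inc Z L + ∑ σ, inc Inc (cellPts P S σ)
        (L.filter fun l => ∃ x ∈ cellPts P S σ, Inc l x))
      ≤ 4 ^ k * ((L.card * (6 * e * 2 ^ k + e) + S.card + s * (6 * e * 2 ^ k) ^ 2) +
          ∑ σ, ((L.filter fun l => ∃ x ∈ cellPts P S σ, Inc l x).card +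
            s * (cellPts P S σ).card ^ 2)) :=
        Nat.mul_le_mul_left _ (Nat.add_le_add hzero (sum_le_sum fun σ _ => inc_le_curves h _ _))
    _ ≤ 4 ^ k * ((L.card * (6 * e * 2 ^ k + e) + S.card + s * (6 * e * 2 ^ k) ^ 2) +
          L.card * (6 * e * 2 ^ k + e)) + s * (4 ^ k * ∑ σ, (cellPts P S σ).card ^ 2) := by
        rw [sum_add_distrib, ← mul_sum]
        linarith [Nat.mul_le_mul_left (4 ^ k) hcells]
    _ ≤ _ := Nat.add_le_add (le_of_eq (by ring)) (Nat.mul_le_mul_left s hsq)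

/-- The constant in the incidence bound. -/
def incConst (s e : ℕ) : ℝ := 14 * e + 36 * s * (e : ℝ) ^ 2 + 5 * s + 1

/-- **The incidence theorem.** -/
theorem inc_le (h : CurveFamily Inc s e) (S : Finset Pt) (L : Finset κ) :
    (inc Inc S L : ℝ) ≤ incConst s e *
      (((S.card : ℝ) * L.card) ^ (2 / 3 : ℝ) + S.card + L.card) := by
  obtain ⟨m, hm⟩ : ∃ m : ℝ, m = S.card := ⟨_, rfl⟩
  obtain ⟨n, hn⟩ : ∃ n : ℝ, n = L.card := ⟨_, rfl⟩
  rw [← hm, ← hn]
  have hm0 : 0 ≤ m := hm ▸ Nat.cast_nonneg' _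
  have hn0 : 0 ≤ n := hn ▸ Nat.cast_nonneg' _
  have hX : 0 ≤ (m * n) ^ (2 / 3 : ℝ) := Real.rpow_nonneg (mul_nonneg hm0 hn0) _
  have he : (0 : ℝ) ≤ e := Nat.cast_nonneg' e
  have hs : (0 : ℝ) ≤ s := Nat.cast_nonneg' s
  have hA : 1 + (s : ℝ) ≤ incConst s e := by rw [incConst]; nlinarith
  have hA0 : (0 : ℝ) ≤ incConst s e := by linarith
  rcases le_total (n ^ 2) m with h1 | h1
  · have h2 : (inc Inc S L : ℝ) ≤ m + s * n ^ 2 := by
      rw [hm, hn]; exact_mod_cast inc_le_points h S L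
    nlinarith
  rcases le_total (m ^ 2) n with h2 | h2
  · have h3 : (inc Inc S L : ℝ) ≤ n + s * m ^ 2 := by
      rw [hm, hn]; exact_mod_cast inc_le_curves h S L
    nlinarith
  rcases hn0.eq_or_lt with h0 | hn1
  · have hL : L = ∅ := card_eq_zero.1 (by
      have h0' : (L.card : ℝ) = 0 := by rw [← hn, ← h0]
      exact_mod_cast h0')
    rw [hL, inc, sum_empty, Nat.cast_zero]
    positivity
  obtain ⟨t, ht⟩ : ∃ t : ℝ, t = (m ^ 2 / n) ^ (1 / 3 : ℝ) := ⟨_, rfl⟩
  have ht1 : 1 ≤ t := ht ▸ Real.one_le_rpow ((one_le_div hn1).2 h2) (by norm_num)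
  have ht3 : t ^ 3 = m ^ 2 / n := by
    rw [ht, ← Real.rpow_natCast, ← Real.rpow_mul (by positivity)]
    norm_num
  have hnt : (m * n) ^ (2 / 3 : ℝ) = n * t := by
    have hm2 : m ^ 2 = t ^ 3 * n := by rw [ht3]; field_simp
    have e1 : (m * n) ^ (2 / 3 : ℝ) = ((m * n) ^ 2) ^ (1 / 3 : ℝ) := by
      rw [← Real.rpow_natCast (m * n) 2, ← Real.rpow_mul (mul_nonneg hm0 hn0)]; norm_num
    rw [e1, mul_pow, hm2, show t ^ 3 * n * n ^ 2 = (n * t) ^ ((3 : ℕ) : ℝ) by
      rw [Real.rpow_natCast]; ring, ← Real.rpow_mul (by positivity)]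
    norm_num
  have htn : t ≤ n := by
    have : t ^ 3 ≤ n ^ 3 := by
      rw [ht3, div_le_iff₀ hn1]
      nlinarith [pow_le_pow_left₀ hm0 h1 1]
    exact (pow_le_pow_iff_left₀ (by linarith) hn0 (by norm_num)).1 this
  obtain ⟨k, hk⟩ : ∃ k, k = Nat.log 2 ⌊t⌋₊ := ⟨_, rfl⟩
  have hk1 : ((2 : ℝ) ^ k) ≤ t := by
    refine le_trans ?_ (Nat.floor_le (by linarith))
    rw [hk]; exact_mod_cast Nat.pow_log_le_self 2 (Nat.floor_pos.2 ht1).ne'
  have hk2 : t < 2 * (2 : ℝ) ^ k := by
    refine lt_of_lt_of_le (Nat.lt_floor_add_one t) ?_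
    have := Nat.lt_pow_succ_log_self one_lt_two ⌊t⌋₊
    rw [← hk, pow_succ'] at this
    exact_mod_cast Nat.succ_le_of_lt this
  have hmain : (4 : ℝ) ^ k * (inc Inc S L : ℝ) ≤ 4 ^ k * (2 * n * (6 * e * 2 ^ k + e) + m +
      s * (6 * e * 2 ^ k) ^ 2) + s * m ^ 2 := by
    rw [hm, hn]; exact_mod_cast inc_le_partition h S L k
  have h4 : (4 : ℝ) ^ k = ((2 : ℝ) ^ k) ^ 2 := by rw [← pow_mul, mul_comm, pow_mul]; norm_num
  have hm2 : m ^ 2 = t ^ 3 * n := by rw [ht3]; field_simp
  rw [hnt]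
  obtain ⟨w, hw⟩ : ∃ w : ℝ, w = (2 : ℝ) ^ k := ⟨_, rfl⟩
  rw [h4, ← hw] at hmain
  rw [← hw] at hk1 hk2
  have hw0 : 0 < w := hw ▸ by positivity
  have hw2 : t ^ 3 * n ≤ w ^ 2 * (4 * (n * t)) := by
    have : t ^ 2 ≤ 4 * w ^ 2 := by nlinarith
    nlinarith [mul_le_mul_of_nonneg_left this (mul_nonneg hn0 (by linarith : (0 : ℝ) ≤ t))]
  refine le_of_mul_le_mul_left ?_ (pow_pos hw0 2)
  refine hmain.trans ?_
  rw [hm2]
  calc w ^ 2 * (2 * n * (6 * e * w + e) + m + s * (6 * e * w) ^ 2) + s * (t ^ 3 * n)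
      ≤ w ^ 2 * (2 * n * (6 * e * w + e) + m + s * (6 * e * w) ^ 2) + s * (w ^ 2 * (4 * (n * t))) :=
        add_le_add le_rfl (mul_le_mul_of_nonneg_left hw2 hs)
    _ = w ^ 2 * (2 * n * (6 * e * w + e) + m + s * (6 * e * w) ^ 2 + s * (4 * (n * t))) := by ring
    _ ≤ _ := by
        refine mul_le_mul_of_nonneg_left ?_ (by positivity)
        have q1 : n * w ≤ n * t := mul_le_mul_of_nonneg_left hk1 hn0
        have q2 : w ^ 2 ≤ n * t := by nlinarith
        rw [incConst]
        nlinarith [mul_le_mul_of_nonneg_left q1 he,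
          mul_le_mul_of_nonneg_left q2 (mul_nonneg hs (sq_nonneg (e : ℝ))),
          mul_nonneg he hm0, mul_nonneg hs hm0, mul_nonneg hs hn0,
          mul_nonneg (mul_nonneg hs (sq_nonneg (e : ℝ))) hm0,
          mul_nonneg (mul_nonneg hs (sq_nonneg (e : ℝ))) hn0,
          mul_nonneg he (mul_nonneg hn0 (by linarith : (0 : ℝ) ≤ t)), mul_nonneg he hn0,
          mul_nonneg hs (mul_nonneg hn0 (by linarith : (0 : ℝ) ≤ t))]

end FA.PolyPartition
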