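import Fermat.Agent.PolyPartition.Param
import Fermat.Agent.PolyPartition.Incidence
import Mathlib.Algebra.MvPolynomial.Funext
import Mathlib.RingTheory.Polynomial.Basic
import Mathlib.Data.Finset.Sum

/-!
# Lines and the theorem of Szemerédi and Trotter
-/

set_option autoImplicit false

noncomputable section

namespace FA.PolyPartition

open Finset MvPolynomial

/-- `y = a x + b` or `x = c`. -/
abbrev LineRep := (ℝ × ℝ) ⊕ ℝ

/-- The point lies on the line. -/
def OnLine : LineRep → Pt → Prop
  | Sum.inl (a, b), x => x 1 = a * x 0 + b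
  | Sum.inr c, x => x 0 = c

theorem pt_ext {x y : Pt} (h0 : x 0 = y 0) (h1 : x 1 = y 1) : x = y := by
  funext i; fin_cases i <;> assumption

theorem eq_of_onLine {l l' : LineRep} {x y : Pt} (hxy : x ≠ y) (h1 : OnLine l x) (h2 : OnLine l y)
    (h3 : OnLine l' x) (h4 : OnLine l' y) : l = l' := by
  rcases l with ⟨a, b⟩ | c <;> rcases l' with ⟨a', b'⟩ | c' <;> simp only [OnLine] at h1 h2 h3 h4
  · have h0 : x 0 ≠ y 0 := fun e => hxy (pt_ext e (by rw [h1, h2, e]))
    have ha : a = a' := mul_right_cancel₀ (sub_ne_zero.2 h0) (by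
      linear_combination h3 - h4 - h1 + h2)
    subst ha
    rw [show b = b' by linarith]
  · exact absurd (pt_ext (h3.trans h4.symm) (by rw [h1, h2, h3, h4])) hxy
  · exact absurd (pt_ext (h1.trans h2.symm) (by rw [h3, h4, h1, h2])) hxy
  · rw [← h1, h3]

theorem eval_aeval_poly (f : Fin 2 → Polynomial ℝ) (P : Poly2) (t : ℝ) :
    (aeval f P).eval t = eval (fun i => (f i).eval t) P := by
  induction P using MvPolynomial.induction_on with
  | C r => simp
  | add p q hp hq => simp [hp, hq]
  | mul_X p i hp => simp [hp]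

theorem exists_eval_ne_zero {P : Poly2} (hP : P ≠ 0) : ∃ x : Pt, eval x P ≠ 0 := by
  by_contra h
  push Not at h
  exact hP (MvPolynomial.funext fun x => by rw [h x, map_zero])

/-- The parametrisation of a line. -/
def lineParam : LineRep → Polynomial ℝ × Polynomial ℝ
  | Sum.inl (a, b) => (Polynomial.X, Polynomial.C a * Polynomial.X + Polynomial.C b)
  | Sum.inr c => (Polynomial.C c, Polynomial.X)

theorem lineParam_deg (l : LineRep) :
    (lineParam l).1.natDegree ≤ 1 ∧ (lineParam l).2.natDegree ≤ 1 := by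
  rcases l with ⟨a, b⟩ | c
  · exact ⟨Polynomial.natDegree_X_le, Polynomial.natDegree_linear_le⟩
  · exact ⟨(Polynomial.natDegree_C c).le.trans zero_le_one, Polynomial.natDegree_X_le⟩

theorem onLine_iff (l : LineRep) (x : Pt) :
    OnLine l x ↔ ∃ t, paramPt (lineParam l).1 (lineParam l).2 1 t = x := by
  rcases l with ⟨a, b⟩ | c <;> simp only [OnLine, lineParam, paramPt]
  · constructor
    · exact fun h => ⟨x 0, pt_ext (by simp) (by simp [h])⟩
    · rintro ⟨t, rfl⟩; simp
  · constructor
    · exact fun h => ⟨x 1, pt_ext (by simp [h]) (by simp)⟩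
    · rintro ⟨t, rfl⟩; simp

theorem lines_full (P : Poly2) (L : Finset LineRep) (hP : P ≠ 0)
    (hL : ∀ l ∈ L, ∀ x, OnLine l x → eval x P = 0) : L.card ≤ 2 * P.totalDegree := by
  classical
  obtain ⟨x, hx⟩ := exists_eval_ne_zero hP
  obtain ⟨G, hG⟩ : ∃ G : Polynomial ℝ, G = aeval ![Polynomial.X, Polynomial.C (x 1)] P := ⟨_, rfl⟩
  have hGev : ∀ u, G.eval u = eval ![u, x 1] P := fun u => by
    rw [hG, eval_aeval_poly]; exact congrArg (fun f => eval f P) (pt_ext (by simp) (by simp))
  have hGdeg : G.natDegree ≤ P.totalDegree := by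
    refine hG ▸ (aeval_natDegree_le P le_rfl _ (n := 1) fun i => ?_).trans (le_of_eq (mul_one _))
    fin_cases i <;> simp
  have hG0 : G ≠ 0 := fun h => hx (by
    have := hGev (x 0)
    rw [h, Polynomial.eval_zero] at this
    rw [show x = ![x 0, x 1] from pt_ext (by simp) (by simp)]
    exact this.symm)
  have hvert : L.toRight.card ≤ P.totalDegree := by
    refine le_trans (card_le_card (t := G.roots.toFinset) fun c hc => ?_)
      ((Multiset.toFinset_card_le _).trans ((Polynomial.card_roots' G).trans hGdeg))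
    refine Multiset.mem_toFinset.2 ((Polynomial.mem_roots hG0).2 ?_)
    rw [Polynomial.IsRoot, hGev]
    exact hL _ (mem_toRight.1 hc) _ (by simp [OnLine])
  obtain ⟨bad, hbad⟩ : ∃ bad : Finset ℝ, bad = G.roots.toFinset ∪
      (L.toLeft ×ˢ L.toLeft).image fun p => (p.2.2 - p.1.2) / (p.1.1 - p.2.1) := ⟨_, rfl⟩
  obtain ⟨u, hu⟩ := Infinite.exists_notMem_finset bad
  obtain ⟨H, hH⟩ : ∃ H : Polynomial ℝ, H = aeval ![Polynomial.C u, Polynomial.X] P := ⟨_, rfl⟩
  have hHev : ∀ w, H.eval w = eval ![u, w] P := fun w => by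
    rw [hH, eval_aeval_poly]; exact congrArg (fun f => eval f P) (pt_ext (by simp) (by simp))
  have hHdeg : H.natDegree ≤ P.totalDegree := by
    refine hH ▸ (aeval_natDegree_le P le_rfl _ (n := 1) fun i => ?_).trans (le_of_eq (mul_one _))
    fin_cases i <;> simp
  have hH0 : H ≠ 0 := fun h => hu (hbad ▸ mem_union_left _ (Multiset.mem_toFinset.2
    ((Polynomial.mem_roots hG0).2 (by
      rw [Polynomial.IsRoot, hGev, ← hHev, h, Polynomial.eval_zero]))))
  have hleft : L.toLeft.card ≤ P.totalDegree := by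
    refine le_trans (card_le_card_of_injOn (fun p : ℝ × ℝ => p.1 * u + p.2)
      (t := H.roots.toFinset) (fun p hp => ?_) fun p hp q hq e => ?_)
      ((Multiset.toFinset_card_le _).trans ((Polynomial.card_roots' H).trans hHdeg))
    · refine Multiset.mem_toFinset.2 ((Polynomial.mem_roots hH0).2 ?_)
      rw [Polynomial.IsRoot, hHev]
      exact hL _ (mem_toLeft.1 hp) _ (by simp [OnLine])
    · simp only at e
      by_cases ha : p.1 = q.1
      · exact Prod.ext ha (by rw [ha] at e; linarith)
      · refine absurd (hbad ▸ mem_union_right _ (mem_image.2 ⟨(p, q), mem_product.2 ⟨hp, hq⟩, ?_⟩)) hu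
        rw [div_eq_iff (sub_ne_zero.2 ha)]
        linarith
  rw [← card_toLeft_add_card_toRight]
  omega

/-- Lines form a curve family. -/
theorem lineFamily : CurveFamily OnLine 1 2 where
  pair L x y _ hxy := card_le_one.2 fun a ha b hb =>
    eq_of_onLine hxy (mem_filter.1 ha).2.1 (mem_filter.1 ha).2.2 (mem_filter.1 hb).2.1
      (mem_filter.1 hb).2.2
  meet S l l' _ hne := card_le_one.2 fun a ha b hb => by_contra fun h =>
    hne (eq_of_onLine h (mem_filter.1 ha).2.1 (mem_filter.1 hb).2.1 (mem_filter.1 ha).2.2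
      (mem_filter.1 hb).2.2)
  full := lines_full
  zeros P l S hS := by
    rcases zeros_along (lineParam_deg l).1 (lineParam_deg l).2
      (c := 1) (by simp) (fun t => by simp) P with h | h
    · refine Or.inl fun x hx => ?_
      obtain ⟨t, rfl⟩ := (onLine_iff l x).1 hx
      exact h t
    · right
      have := h S fun x hx => ⟨(hS x hx).2, (onLine_iff l x).1 (hS x hx).1⟩
      omega
  cells P l S hS := by
    have := signs_along (lineParam_deg l).1 (lineParam_deg l).2 (c := 1) (by simp)
      (fun t => by simp) P S fun x hx => ⟨(hS x hx).2, (onLine_iff l x).1 (hS x hx).1⟩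
    omega

end FA.PolyPartition
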