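import Fermat.Agent.PolyPartition.Circles
import Mathlib.Data.Nat.Log

/-!
# Szemerédi–Trotter, rich lines, Beck's theorem, unit distances
-/

set_option autoImplicit false

noncomputable section

namespace FA.PolyPartition

open Finset

/-- A line: `{q + t v}` with `v ≠ 0`. -/
def IsLine (l : Set Pt) : Prop := ∃ q v : Pt, v ≠ 0 ∧ l = Set.range fun t : ℝ => q + t • v

theorem exists_rep {l : Set Pt} (hl : IsLine l) : ∃ r : LineRep, l = {x | OnLine r x} := by
  obtain ⟨q, v, hv, rfl⟩ := hl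
  by_cases h0 : v 0 = 0
  · have h1 : v 1 ≠ 0 := fun h => hv (pt_ext (by simpa using h0) (by simpa using h))
    refine ⟨Sum.inr (q 0), Set.ext fun x => ⟨?_, fun hx => ⟨(x 1 - q 1) / v 1, ?_⟩⟩⟩
    · rintro ⟨t, rfl⟩
      simp [OnLine, h0]
    · simp only [Set.mem_ofPred_eq, OnLine] at hx
      refine pt_ext (by simp [h0, hx]) ?_
      simp only [Pi.add_apply, Pi.smul_apply, smul_eq_mul]
      field_simp; ring
  · refine ⟨Sum.inl (v 1 / v 0, q 1 - v 1 / v 0 * q 0),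
      Set.ext fun x => ⟨?_, fun hx => ⟨(x 0 - q 0) / v 0, ?_⟩⟩⟩
    · rintro ⟨t, rfl⟩
      simp only [Set.mem_ofPred_eq, OnLine, Pi.add_apply, Pi.smul_apply, smul_eq_mul]
      field_simp; ring
    · simp only [Set.mem_ofPred_eq, OnLine] at hx
      refine pt_ext (by simp only [Pi.add_apply, Pi.smul_apply, smul_eq_mul]; field_simp; ring) ?_
      simp only [Pi.add_apply, Pi.smul_apply, smul_eq_mul]
      rw [hx]
      field_simp; ring

theorem incConst_one_le (s e : ℕ) : 1 ≤ incConst s e := by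
  rw [incConst]
  have : (0 : ℝ) ≤ 14 * e + 36 * s * (e : ℝ) ^ 2 + 5 * s := by positivity
  linarith

open Classical in
/-- **The theorem of Szemerédi and Trotter.** -/
theorem szemeredi_trotter (S : Finset Pt) (L : Finset (Set Pt)) (hL : ∀ l ∈ L, IsLine l) :
    ((∑ l ∈ L, (S.filter fun x => x ∈ l).card : ℕ) : ℝ) ≤ incConst 1 2 *
      (((S.card : ℝ) * L.card) ^ (2 / 3 : ℝ) + S.card + L.card) := by
  choose! rep hrep using fun l hl => exists_rep (hL l hl)
  have hinj : Set.InjOn rep L := fun a ha b hb e => by rw [hrep a ha, hrep b hb, e]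
  have hinc : inc OnLine S (L.image rep) = ∑ l ∈ L, (S.filter fun x => x ∈ l).card := by
    rw [inc, sum_image hinj]
    refine sum_congr rfl fun l hl => congrArg card (filter_congr fun x _ => ?_)
    exact ⟨fun h => by rw [hrep l hl]; exact h, fun h => by rw [hrep l hl] at h; exact h⟩
  have := inc_le lineFamily S (L.image rep)
  rwa [card_image_of_injOn hinj, hinc] at this

open Classical in
/-- **Rich lines.** -/
theorem rich_lines_le (S : Finset Pt) (L : Finset LineRep) {r : ℕ} (hr : 2 ≤ r)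
    (hL : ∀ l ∈ L, r ≤ (S.filter fun x => OnLine l x).card) :
    (L.card : ℝ) ≤ 27 * incConst 1 2 ^ 3 * ((S.card : ℝ) ^ 2 / (r : ℝ) ^ 3 + S.card / r) := by
  obtain ⟨A, hA⟩ : ∃ A, A = incConst 1 2 := ⟨_, rfl⟩
  have hA1 : 1 ≤ A := hA ▸ incConst_one_le 1 2
  obtain ⟨m, hm⟩ : ∃ m : ℝ, m = S.card := ⟨_, rfl⟩
  obtain ⟨n, hn⟩ : ∃ n : ℝ, n = L.card := ⟨_, rfl⟩
  rw [← hA, ← hm, ← hn]
  have hm0 : 0 ≤ m := hm ▸ Nat.cast_nonneg' _
  have hn0 : 0 ≤ n := hn ▸ Nat.cast_nonneg' _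
  have hr0 : (0 : ℝ) < r := Nat.cast_pos.2 (by omega)
  have hA3 : A ≤ 9 * A ^ 3 := by
    have : A ≤ A ^ 3 := le_self_pow₀ hA1 (by norm_num)
    linarith
  have hinc : (r : ℝ) * n ≤ A * ((m * n) ^ (2 / 3 : ℝ) + m + n) := by
    refine le_trans ?_ (hm ▸ hn ▸ hA ▸ inc_le lineFamily S L)
    rw [hn, ← Nat.cast_mul, Nat.cast_le, mul_comm, ← smul_eq_mul, inc]
    exact card_nsmul_le_sum _ _ _ hL
  rcases le_or_gt (r : ℝ) (3 * A) with hsmall | hbig
  · -- two points determine a line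
    have h1 : L.card ≤ S.card ^ 2 := by
      refine (card_le_card (t := S.offDiag.biUnion fun p =>
        L.filter fun l => OnLine l p.1 ∧ OnLine l p.2) fun l hl => ?_).trans
        ((card_biUnion_le_card_mul _ _ 1 fun p hp =>
          lineFamily.pair L p.1 p.2 (mem_offDiag.1 hp).2.2).trans ?_)
      · obtain ⟨x, hx, y, hy, hxy⟩ := one_lt_card.1 (lt_of_lt_of_le (by omega) (hL l hl))
        exact mem_biUnion.2 ⟨(x, y), mem_offDiag.2 ⟨(mem_filter.1 hx).1, (mem_filter.1 hy).1, hxy⟩,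
          mem_filter.2 ⟨hl, (mem_filter.1 hx).2, (mem_filter.1 hy).2⟩⟩
      · rw [offDiag_card, mul_one, sq]; exact Nat.sub_le _ _
    have h2 : n ≤ m ^ 2 := by rw [hm, hn]; exact_mod_cast h1
    have h3 : n * (r : ℝ) ^ 3 ≤ 27 * A ^ 3 * m ^ 2 := by
      have := mul_le_mul h2 (pow_le_pow_left₀ hr0.le hsmall 3) (by positivity) (by positivity)
      linarith [this, show (3 * A) ^ 3 = 27 * A ^ 3 by ring,
        show m ^ 2 * (3 * A) ^ 3 = 27 * A ^ 3 * m ^ 2 by ring]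
    calc n ≤ 27 * A ^ 3 * (m ^ 2 / (r : ℝ) ^ 3) := by
          rw [mul_div_assoc', le_div_iff₀ (by positivity)]; exact h3
      _ ≤ _ := mul_le_mul_of_nonneg_left (le_add_of_nonneg_right (by positivity)) (by positivity)
  rcases le_total ((m * n) ^ (2 / 3 : ℝ)) m with h | h
  · have h4 : n * r ≤ 27 * A ^ 3 * m := by
      have h5 : A * n * 3 ≤ r * n := by nlinarith [mul_le_mul_of_nonneg_right hbig.le hn0]
      have h6 : A * ((m * n) ^ (2 / 3 : ℝ)) ≤ A * m := mul_le_mul_of_nonneg_left h (by linarith)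
      have h7 : A * m ≤ 9 * A ^ 3 * m := mul_le_mul_of_nonneg_right hA3 hm0
      linarith
    calc n ≤ 27 * A ^ 3 * (m / r) := by rw [mul_div_assoc', le_div_iff₀ hr0]; exact h4
      _ ≤ _ := mul_le_mul_of_nonneg_left (le_add_of_nonneg_left (by positivity)) (by positivity)
  · have h5 : (r : ℝ) * n ≤ 3 * A * (m * n) ^ (2 / 3 : ℝ) := by nlinarith
    have h6 : ((r : ℝ) * n) ^ 3 ≤ 27 * A ^ 3 * (m * n) ^ 2 := by
      refine (pow_le_pow_left₀ (mul_nonneg hr0.le hn0) h5 3).trans (le_of_eq ?_)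
      rw [mul_pow, ← Real.rpow_natCast ((m * n) ^ (2 / 3 : ℝ)), ← Real.rpow_mul (mul_nonneg hm0 hn0)]
      norm_num [mul_pow]
    rcases hn0.eq_or_lt with h0 | hnpos
    · rw [← h0]; positivity
    have h7 : n * (r : ℝ) ^ 3 ≤ 27 * A ^ 3 * m ^ 2 := by
      refine le_of_mul_le_mul_right ?_ (pow_pos hnpos 2)
      linarith [show ((r : ℝ) * n) ^ 3 = n * (r : ℝ) ^ 3 * n ^ 2 by ring,
        show 27 * A ^ 3 * (m * n) ^ 2 = 27 * A ^ 3 * m ^ 2 * n ^ 2 by ring]
    calc n ≤ 27 * A ^ 3 * (m ^ 2 / (r : ℝ) ^ 3) := by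
          rw [mul_div_assoc', le_div_iff₀ (by positivity)]; exact h7
      _ ≤ _ := mul_le_mul_of_nonneg_left (le_add_of_nonneg_right (by positivity)) (by positivity)

/-- The line through two points. -/
def lineThrough (x y : Pt) : LineRep :=
  if x 0 = y 0 then Sum.inr (x 0)
  else Sum.inl ((y 1 - x 1) / (y 0 - x 0), x 1 - (y 1 - x 1) / (y 0 - x 0) * x 0)

theorem onLine_lineThrough (x y : Pt) :
    OnLine (lineThrough x y) x ∧ OnLine (lineThrough x y) y := by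
  rw [lineThrough]
  split_ifs with h
  · exact ⟨rfl, h.symm⟩
  · have : y 0 - x 0 ≠ 0 := sub_ne_zero.2 (Ne.symm h)
    simp only [OnLine]
    constructor
    · ring
    · field_simp; ring

open Classical in
theorem offDiag_card_eq_sum (S : Finset Pt) :
    S.offDiag.card = ∑ l ∈ S.offDiag.image (fun p => lineThrough p.1 p.2),
      (S.filter fun x => OnLine l x).offDiag.card := by
  rw [card_eq_sum_card_image (fun p : Pt × Pt => lineThrough p.1 p.2) S.offDiag]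
  refine sum_congr rfl fun l _ => congrArg card (ext fun p => ?_)
  simp only [mem_filter, mem_offDiag]
  constructor
  · rintro ⟨⟨h1, h2, h3⟩, rfl⟩
    exact ⟨⟨h1, (onLine_lineThrough p.1 p.2).1⟩, ⟨h2, (onLine_lineThrough p.1 p.2).2⟩, h3⟩
  · rintro ⟨⟨h1, h2⟩, ⟨h3, h4⟩, h5⟩
    exact ⟨⟨h1, h3, h5⟩, eq_of_onLine h5 (onLine_lineThrough p.1 p.2).1
      (onLine_lineThrough p.1 p.2).2 h2 h4⟩

open Classical in
/-- **Beck's theorem.** -/
theorem beck : ∃ C : ℝ, 0 < C ∧ ∀ S : Finset Pt,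
    (∃ l, (S.card : ℝ) ≤ C * (S.filter fun x => OnLine l x).card) ∨
      (S.card : ℝ) ^ 2 ≤ C * (S.offDiag.image fun p => lineThrough p.1 p.2).card := by
  obtain ⟨B, hB⟩ : ∃ B, B = 27 * incConst 1 2 ^ 3 := ⟨_, rfl⟩
  have hB1 : 1 ≤ B := by
    rw [hB]; nlinarith [one_le_pow₀ (n := 3) (incConst_one_le 1 2)]
  obtain ⟨a, ha⟩ := pow_unbounded_of_one_lt (128 * B) (one_lt_two : (1 : ℝ) < 2)
  obtain ⟨K, hK⟩ : ∃ K : ℕ, K = 2 ^ a := ⟨_, rfl⟩
  have hKR : (128 * B : ℝ) ≤ K := by rw [hK]; push_cast; exact ha.le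
  have hK128 : (128 : ℝ) ≤ K := by nlinarith
  have hK2 : 2 ≤ K := by
    have : (2 : ℝ) ≤ K := by linarith
    exact_mod_cast this
  have ha1 : 1 ≤ a := Nat.one_le_iff_ne_zero.2 fun h => by rw [h] at hK; omega
  refine ⟨4 * (K : ℝ) ^ 2, by positivity, fun S => ?_⟩
  rcases Nat.lt_or_ge S.card 2 with hS | hS
  · rcases S.eq_empty_or_nonempty with rfl | ⟨x, hx⟩
    · right; simp
    · left
      refine ⟨lineThrough x x, ?_⟩
      have h1 : (1 : ℕ) ≤ (S.filter fun z => OnLine (lineThrough x x) z).card :=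
        card_pos.2 ⟨x, mem_filter.2 ⟨hx, (onLine_lineThrough x x).1⟩⟩
      have h2 : (1 : ℝ) ≤ ((S.filter fun z => OnLine (lineThrough x x) z).card : ℝ) :=
        Nat.one_le_cast.2 h1
      have h3 : (S.card : ℝ) ≤ 1 := Nat.cast_le_one.2 (Nat.le_of_lt_succ hS)
      nlinarith
  by_cases hbig : ∃ l, S.card ≤ K * (S.filter fun x => OnLine l x).card
  · obtain ⟨l, hl⟩ := hbig
    refine Or.inl ⟨l, le_trans (Nat.cast_le.2 hl) ?_⟩
    push_cast
    refine mul_le_mul_of_nonneg_right ?_ (Nat.cast_nonneg' _)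
    nlinarith
  push Not at hbig
  right
  obtain ⟨m, hm⟩ : ∃ m : ℝ, m = S.card := ⟨_, rfl⟩
  have hm2 : 2 ≤ m := by rw [hm]; exact_mod_cast hS
  obtain ⟨Ls, hLs⟩ : ∃ Ls, Ls = S.offDiag.image fun p => lineThrough p.1 p.2 := ⟨_, rfl⟩
  rw [← hm, ← hLs]
  obtain ⟨pc, hpc⟩ : ∃ pc : LineRep → ℕ, pc = fun l => (S.filter fun x => OnLine l x).card :=
    ⟨_, rfl⟩
  have hpairs : (m * m - m : ℝ) = ∑ l ∈ Ls, (((pc l) * (pc l) - pc l : ℕ) : ℝ) := by
    have h := offDiag_card_eq_sum S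
    simp only [offDiag_card] at h
    rw [hm, hpc, hLs, ← Nat.cast_sum, ← h, Nat.cast_sub (Nat.le_mul_self _), Nat.cast_mul]
  obtain ⟨b, hb⟩ : ∃ b, b = Nat.log 2 (S.card / K) + 1 := ⟨_, rfl⟩
  have hrich : ∑ l ∈ Ls.filter (fun l => K ≤ pc l), ((pc l : ℝ)) ^ 2 ≤ m ^ 2 / 8 := by
    rw [← sum_fiberwise_of_maps_to (g := fun l => Nat.log 2 (pc l)) (t := Ico a b) fun l hl => ?_]
    swap
    · obtain ⟨-, hl'⟩ := mem_filter.1 hl
      refine mem_Ico.2 ⟨Nat.le_log_of_pow_le one_lt_two (hK ▸ hl'), ?_⟩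
      rw [hb]
      refine Nat.lt_succ_of_le (Nat.log_mono_right ((Nat.le_div_iff_mul_le (by omega)).2 ?_))
      have := hbig l
      rw [mul_comm]
      simp only [hpc]
      exact this.le
    have hterm : ∀ i ∈ Ico a b, ∑ l ∈ (Ls.filter fun l => K ≤ pc l).filter
        (fun l => Nat.log 2 (pc l) = i), ((pc l : ℝ)) ^ 2 ≤
          4 * B * (m ^ 2 / (2 : ℝ) ^ i + m * (2 : ℝ) ^ i) := by
      intro i hi
      have hi1 : 1 ≤ i := ha1.trans (mem_Ico.1 hi).1
      have hr2 : 2 ≤ 2 ^ i := le_trans (le_of_eq (pow_one 2).symm) (Nat.pow_le_pow_right two_pos hi1)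
      obtain ⟨F, hF⟩ : ∃ F, F = (Ls.filter fun l => K ≤ pc l).filter
          fun l => Nat.log 2 (pc l) = i := ⟨_, rfl⟩
      have hlog : ∀ l ∈ F, 2 ^ i ≤ pc l ∧ pc l ≤ 2 * 2 ^ i := by
        intro l hl
        obtain ⟨hl1, hl2⟩ := mem_filter.1 (hF ▸ hl :)
        have hp : pc l ≠ 0 := by have := (mem_filter.1 hl1).2; omega
        refine ⟨hl2 ▸ Nat.pow_log_le_self 2 hp, ?_⟩
        have := Nat.lt_pow_succ_log_self one_lt_two (pc l)
        rw [hl2, pow_succ'] at this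
        exact this.le
      have hcard : (F.card : ℝ) ≤ B * (m ^ 2 / ((2 : ℝ) ^ i) ^ 3 + m / (2 : ℝ) ^ i) := by
        have := rich_lines_le S F hr2 fun l hl => by
          have := (hlog l hl).1
          simpa [hpc] using this
        rwa [← hB, ← hm, Nat.cast_pow, Nat.cast_ofNat] at this
      rw [← hF]
      refine (sum_le_card_nsmul _ _ ((2 * (2 : ℝ) ^ i) ^ 2) fun l hl => pow_le_pow_left₀
        (Nat.cast_nonneg' _) (by exact_mod_cast (hlog l hl).2) 2).trans ?_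
      rw [nsmul_eq_mul]
      refine (mul_le_mul_of_nonneg_right hcard (by positivity)).trans (le_of_eq ?_)
      field_simp
      ring
    refine (sum_le_sum hterm).trans ?_
    rw [← mul_sum, sum_add_distrib, ← mul_sum]
    rcases le_or_gt b a with hab | hab
    · rw [Ico_eq_empty (not_lt.2 hab), sum_empty, sum_empty]; simp only [mul_zero, add_zero]; positivity
    have hg1 : ∑ i ∈ Ico a b, m ^ 2 / (2 : ℝ) ^ i ≤ 2 * m ^ 2 / K := by
      have h := sum_Ico_sub (fun i : ℕ => -(2 * m ^ 2 / (2 : ℝ) ^ i)) hab.le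
      rw [sum_congr rfl fun i _ => show -(2 * m ^ 2 / (2 : ℝ) ^ (i + 1)) - -(2 * m ^ 2 / 2 ^ i) =
        m ^ 2 / (2 : ℝ) ^ i by rw [pow_succ]; field_simp; ring] at h
      rw [h, hK]
      push_cast
      have : 0 ≤ 2 * m ^ 2 / (2 : ℝ) ^ b := by positivity
      linarith
    have hg2 : ∑ i ∈ Ico a b, (2 : ℝ) ^ i ≤ 2 * m / K := by
      have h := sum_Ico_sub (fun i : ℕ => (2 : ℝ) ^ i) hab.le
      rw [sum_congr rfl fun i _ => show (2 : ℝ) ^ (i + 1) - 2 ^ i = 2 ^ i by rw [pow_succ]; ring] at h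
      have hb2 : 2 ^ b * K ≤ 2 * S.card := by
        rw [hb, pow_succ', mul_assoc]
        refine Nat.mul_le_mul_left 2 ?_
        have hne : S.card / K ≠ 0 := by
          intro h0
          rw [hb, h0, Nat.log_zero_right] at hab
          omega
        exact (Nat.mul_le_mul_right K (Nat.pow_log_le_self 2 hne)).trans (Nat.div_mul_le_self _ _)
      rw [h, le_div_iff₀ (by linarith)]
      have : (2 : ℝ) ^ b * K ≤ 2 * m := by rw [hm]; exact_mod_cast hb2
      have : (0 : ℝ) ≤ (2 : ℝ) ^ a * K := by positivity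
      nlinarith
    have hBK : B / (K : ℝ) ≤ 1 / 128 := by
      rw [div_le_div_iff₀ (by linarith) (by norm_num)]; linarith
    calc 4 * B * (∑ i ∈ Ico a b, m ^ 2 / (2 : ℝ) ^ i + m * ∑ i ∈ Ico a b, (2 : ℝ) ^ i)
        ≤ 4 * B * (2 * m ^ 2 / K + m * (2 * m / K)) :=
          mul_le_mul_of_nonneg_left (add_le_add hg1 (mul_le_mul_of_nonneg_left hg2 (by linarith)))
            (by linarith)
      _ = 16 * m ^ 2 * (B / K) := by ring
      _ ≤ 16 * m ^ 2 * (1 / 128) := mul_le_mul_of_nonneg_left hBK (by positivity)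
      _ = _ := by ring
  have hsplit : ∑ l ∈ Ls, (((pc l) * (pc l) - pc l : ℕ) : ℝ) ≤
      m ^ 2 / 8 + Ls.card * (K : ℝ) ^ 2 := by
    rw [← sum_filter_add_sum_filter_not Ls (fun l => K ≤ pc l)]
    refine add_le_add (le_trans (sum_le_sum fun l _ => ?_) hrich) ?_
    · rw [sq, ← Nat.cast_mul]; exact Nat.cast_le.2 (Nat.sub_le _ _)
    · refine (sum_le_card_nsmul _ _ ((K : ℝ) ^ 2) fun l hl => ?_).trans ?_
      · have := (mem_filter.1 hl).2
        rw [sq, ← Nat.cast_mul]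
        exact Nat.cast_le.2 ((Nat.sub_le _ _).trans (Nat.mul_le_mul (by omega) (by omega)))
      · rw [nsmul_eq_mul]
        exact mul_le_mul_of_nonneg_right (Nat.cast_le.2 (card_filter_le _ _)) (by positivity)
  nlinarith

open Classical in
/-- **Unit distances.** -/
theorem unit_distances (S : Finset Pt) :
    ((S.offDiag.filter fun p => (p.1 0 - p.2 0) ^ 2 + (p.1 1 - p.2 1) ^ 2 = 1).card : ℝ) ≤
      3 * incConst 2 2 * (S.card : ℝ) ^ (4 / 3 : ℝ) := by
  have h1 : (S.offDiag.filter fun p => (p.1 0 - p.2 0) ^ 2 + (p.1 1 - p.2 1) ^ 2 = 1).card ≤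
      inc OnCircle S S := by
    rw [card_eq_sum_card_fiberwise (f := fun p : Pt × Pt => p.2) (t := S) fun p hp =>
      (mem_offDiag.1 (mem_filter.1 hp).1).2.1]
    refine sum_le_sum fun c _ => card_le_card_of_injOn (fun p => p.1) (fun p hp => ?_) ?_
    · obtain ⟨hp1, rfl⟩ := mem_filter.1 hp
      obtain ⟨hp2, hp3⟩ := mem_filter.1 hp1
      exact mem_filter.2 ⟨(mem_offDiag.1 hp2).1, hp3⟩
    · intro p hp q hq e
      exact Prod.ext e ((mem_filter.1 hp).2.trans (mem_filter.1 hq).2.symm)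
  obtain ⟨m, hm⟩ : ∃ m : ℝ, m = S.card := ⟨_, rfl⟩
  have hm0 : 0 ≤ m := hm ▸ Nat.cast_nonneg' _
  have h2 := inc_le circleFamily S S
  rw [← hm] at h2 ⊢
  have h3 : (m * m) ^ (2 / 3 : ℝ) = m ^ (4 / 3 : ℝ) := by
    rw [← sq, ← Real.rpow_natCast, ← Real.rpow_mul hm0]; norm_num
  have h4 : m ≤ m ^ (4 / 3 : ℝ) := by
    rcases Nat.eq_zero_or_pos S.card with h | h
    · rw [hm, h, Nat.cast_zero]; exact Real.rpow_nonneg le_rfl _
    · exact Real.self_le_rpow_of_one_le (by rw [hm]; exact Nat.one_le_cast.2 h) (by norm_num)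
  rw [h3] at h2
  refine (Nat.cast_le.2 h1).trans (h2.trans ?_)
  nlinarith [incConst_one_le 2 2]

end FA.PolyPartition
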