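import Fermat.Agent.PolyPartition.Partition
import Mathlib.Algebra.Polynomial.Roots
import Mathlib.Topology.Algebra.Polynomial
import Mathlib.Topology.Order.IntermediateValue
import Mathlib.Algebra.Polynomial.Degree.Lemmas

/-!
# Polynomials along rational curves

Along `t ↦ (a (t) / c (t), b (t) / c (t))` with `deg a, b, c ≤ e` a polynomial of degree `D` either
vanishes identically or at most `e D` times, and the sign vector of polynomials of total degree `D`
takes at most `e D + 1` values.
-/

set_option autoImplicit false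

noncomputable section

namespace FA.PolyPartition

open Finset MvPolynomial

variable {K : Type*} [Field K]

/-- `c ^ D P (a / c, b / c)`. -/
def homogAlong (φ : ℝ →+* K) (a b c : Polynomial K) (D : ℕ) (P : Poly2) : Polynomial K :=
  ∑ s ∈ P.support, Polynomial.C (φ (coeff s P)) * a ^ s 0 * b ^ s 1 * c ^ (D - (s 0 + s 1))

theorem exponents_le {P : Poly2} {D : ℕ} (hD : P.totalDegree ≤ D) {s : Fin 2 →₀ ℕ}
    (hs : s ∈ P.support) : s 0 + s 1 ≤ D := by
  refine le_trans (le_of_eq ?_) ((le_totalDegree hs).trans hD)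
  rw [Finsupp.sum_fintype _ _ (fun _ => rfl), Fin.sum_univ_two]

variable {φ : ℝ →+* K} {a b c : Polynomial K} {D e : ℕ} {P : Poly2}

theorem natDegree_homogAlong_le (ha : a.natDegree ≤ e) (hb : b.natDegree ≤ e)
    (hc : c.natDegree ≤ e) (hD : P.totalDegree ≤ D) :
    (homogAlong φ a b c D P).natDegree ≤ e * D := by
  refine Polynomial.natDegree_sum_le_of_forall_le _ _ fun s hs => ?_
  have hs' := exponents_le hD hs
  refine Polynomial.natDegree_mul_le.trans ?_
  refine (Nat.add_le_add Polynomial.natDegree_mul_le (Polynomial.natDegree_pow_le.trans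
    (Nat.mul_le_mul_left _ hc))).trans ?_
  refine (Nat.add_le_add_right (Nat.add_le_add Polynomial.natDegree_mul_le
    (Polynomial.natDegree_pow_le.trans (Nat.mul_le_mul_left _ hb))) _).trans ?_
  refine (Nat.add_le_add_right (Nat.add_le_add_right (Nat.add_le_add
    (le_of_eq (Polynomial.natDegree_C _)) (Polynomial.natDegree_pow_le.trans
      (Nat.mul_le_mul_left _ ha))) _) _).trans ?_
  rw [zero_add, ← Nat.add_mul, ← Nat.add_mul, mul_comm e D]
  exact Nat.mul_le_mul_right _ (by omega)

theorem eval_homogAlong (hD : P.totalDegree ≤ D) {t : K} (ht : c.eval t ≠ 0) :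
    (homogAlong φ a b c D P).eval t =
      c.eval t ^ D * eval₂ φ ![a.eval t / c.eval t, b.eval t / c.eval t] P := by
  rw [eval₂_eq', mul_sum, homogAlong, Polynomial.eval_finsetSum]
  refine sum_congr rfl fun s hs => ?_
  simp only [Fin.prod_univ_two, Matrix.cons_val_zero, Matrix.cons_val_one, Polynomial.eval_mul,
    Polynomial.eval_pow, Polynomial.eval_C]
  obtain ⟨r, hr⟩ : ∃ r, D = s 0 + s 1 + r := ⟨D - (s 0 + s 1), by
    have := exponents_le hD hs; omega⟩
  rw [show D - (s 0 + s 1) = r by omega, hr, div_pow, div_pow, pow_add, pow_add]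
  field_simp

/-! ### Real curves -/

/-- The point of parameter `t`. -/
def paramPt (a b c : Polynomial ℝ) (t : ℝ) : Pt := ![a.eval t / c.eval t, b.eval t / c.eval t]

variable {a b c : Polynomial ℝ}

theorem eval_homogAlong_real (hD : P.totalDegree ≤ D) {t : ℝ} (ht : c.eval t ≠ 0) :
    (homogAlong (RingHom.id ℝ) a b c D P).eval t = c.eval t ^ D * eval (paramPt a b c t) P :=
  eval_homogAlong hD ht

/-- **Along a curve a polynomial vanishes identically or few times.** -/
theorem zeros_along (ha : a.natDegree ≤ e) (hb : b.natDegree ≤ e) (hc : c.natDegree ≤ e)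
    (hpos : ∀ t, 0 < c.eval t) (P : Poly2) :
    (∀ t, eval (paramPt a b c t) P = 0) ∨
      ∀ S : Finset Pt, (∀ x ∈ S, eval x P = 0 ∧ ∃ t, paramPt a b c t = x) →
        S.card ≤ e * P.totalDegree := by
  classical
  obtain ⟨g, hg⟩ : ∃ g, g = homogAlong (RingHom.id ℝ) a b c P.totalDegree P := ⟨_, rfl⟩
  by_cases hg0 : g = 0
  · refine Or.inl fun t => ?_
    have := eval_homogAlong_real (P := P) (a := a) (b := b) le_rfl (hpos t).ne'
    rw [← hg, hg0, Polynomial.eval_zero] at this
    exact (mul_eq_zero.1 this.symm).resolve_left (pow_ne_zero _ (hpos t).ne')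
  refine Or.inr fun S hS => ?_
  calc S.card ≤ (g.roots.toFinset.image (paramPt a b c)).card := by
        refine card_le_card fun x hx => ?_
        obtain ⟨hx0, t, rfl⟩ := hS x hx
        refine mem_image.2 ⟨t, Multiset.mem_toFinset.2 ((Polynomial.mem_roots hg0).2 ?_), rfl⟩
        rw [Polynomial.IsRoot, hg, eval_homogAlong_real le_rfl (hpos t).ne', hx0, mul_zero]
    _ ≤ g.roots.toFinset.card := card_image_le
    _ ≤ g.natDegree := (Multiset.toFinset_card_le _).trans (Polynomial.card_roots' g)
    _ ≤ _ := hg ▸ natDegree_homogAlong_le ha hb hc le_rfl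

/-- **Along a curve few sign vectors occur.** -/
theorem signs_along (ha : a.natDegree ≤ e) (hb : b.natDegree ≤ e) (hc : c.natDegree ≤ e)
    (hpos : ∀ t, 0 < c.eval t) {j : ℕ} (P : Fin j → Poly2) (S : Finset Pt)
    (hS : ∀ x ∈ S, (∀ i, eval x (P i) ≠ 0) ∧ ∃ t, paramPt a b c t = x) :
    (S.image (signs P)).card ≤ e * ∑ i, (P i).totalDegree + 1 := by
  classical
  obtain ⟨g, hg⟩ : ∃ g : Fin j → Polynomial ℝ,
      g = fun i => homogAlong (RingHom.id ℝ) a b c (P i).totalDegree (P i) := ⟨_, rfl⟩
  obtain ⟨R, hR⟩ : ∃ R : Finset ℝ, R = univ.biUnion fun i => (g i).roots.toFinset := ⟨_, rfl⟩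
  have hRcard : R.card ≤ e * ∑ i, (P i).totalDegree := by
    rw [hR, mul_sum]
    refine card_biUnion_le.trans (sum_le_sum fun i _ => ?_)
    refine (Multiset.toFinset_card_le _).trans ((Polynomial.card_roots' _).trans ?_)
    rw [hg]; exact natDegree_homogAlong_le ha hb hc le_rfl
  have hge : ∀ t i, (g i).eval t = c.eval t ^ (P i).totalDegree * eval (paramPt a b c t) (P i) :=
    fun t i => by rw [hg]; exact eval_homogAlong_real le_rfl (hpos t).ne'
  choose! τ hτ using fun x hx => (hS x hx).2
  have hne : ∀ x ∈ S, ∀ i, (g i).eval (τ x) ≠ 0 := fun x hx i => by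
    rw [hge, hτ x hx]; exact mul_ne_zero (pow_ne_zero _ (hpos _).ne') ((hS x hx).1 i)
  have hsign : ∀ x ∈ S, ∀ i, 0 < eval x (P i) ↔ 0 < (g i).eval (τ x) := fun x hx i => by
    rw [hge, hτ x hx, mul_pos_iff_of_pos_left (pow_pos (hpos _) _)]
  obtain ⟨rk, hrk⟩ : ∃ rk : Pt → ℕ, rk = fun x => (R.filter fun r => r < τ x).card := ⟨_, rfl⟩
  have key : ∀ x ∈ S, ∀ y ∈ S, τ x ≤ τ y → rk x = rk y → signs P x = signs P y := by
    intro x hx y hy hle hrank
    funext i
    simp only [signs, decide_eq_decide]
    rw [hsign x hx i, hsign y hy i]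
    by_contra hcon
    obtain ⟨r, hr, hr0⟩ : ∃ r ∈ Set.Icc (τ x) (τ y), (g i).eval r = 0 := by
      have hcont : ContinuousOn (fun t => (g i).eval t) (Set.Icc (τ x) (τ y)) :=
        (Polynomial.continuous _).continuousOn
      rcases (hne x hx i).lt_or_gt with h1 | h1 <;> rcases (hne y hy i).lt_or_gt with h2 | h2
      · exact absurd (iff_of_false h1.not_gt h2.not_gt) hcon
      · exact intermediate_value_Icc hle hcont ⟨h1.le, h2.le⟩
      · exact intermediate_value_Icc' hle hcont ⟨h2.le, h1.le⟩
      · exact absurd (iff_of_true h1 h2) hcon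
    have hgi : g i ≠ 0 := fun h => hne x hx i (by rw [h, Polynomial.eval_zero])
    have hrR : r ∈ R := hR ▸ mem_biUnion.2 ⟨i, mem_univ i,
      Multiset.mem_toFinset.2 ((Polynomial.mem_roots hgi).2 hr0)⟩
    have hrx : r ≠ τ x := fun h => hne x hx i (h ▸ hr0)
    have hry : r ≠ τ y := fun h => hne y hy i (h ▸ hr0)
    have hlt : (R.filter fun r' => r' < τ x).card < (R.filter fun r' => r' < τ y).card := by
      refine card_lt_card ((ssubset_iff_of_subset fun r' hr' => ?_).2 ⟨r, ?_, ?_⟩)
      · exact mem_filter.2 ⟨(mem_filter.1 hr').1, (mem_filter.1 hr').2.trans_le hle⟩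
      · exact mem_filter.2 ⟨hrR, lt_of_le_of_ne hr.2 hry⟩
      · exact fun h => (mem_filter.1 h).2.not_ge hr.1
    rw [hrk] at hrank
    exact absurd hrank hlt.ne
  calc (S.image (signs P)).card ≤ (S.image rk).card := by
        have hfac : ∀ x ∈ S, ∀ y ∈ S, rk x = rk y → signs P x = signs P y := fun x hx y hy h => by
          rcases le_total (τ x) (τ y) with hle | hle
          exacts [key x hx y hy hle h, (key y hy x hx hle h.symm).symm]
        choose! pick hpick using fun k (hk : k ∈ S.image rk) => mem_image.1 hk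
        refine (card_le_card (t := (S.image rk).image fun k => signs P (pick k)) fun σ hσ => ?_).trans
          card_image_le
        obtain ⟨x, hx, rfl⟩ := mem_image.1 hσ
        have hk := mem_image_of_mem rk hx
        exact mem_image.2 ⟨rk x, hk, hfac _ (hpick _ hk).1 x hx (hpick _ hk).2⟩
    _ ≤ (range (R.card + 1)).card := by
        refine card_le_card fun k hk => ?_
        obtain ⟨x, -, rfl⟩ := mem_image.1 hk
        rw [hrk]
        exact mem_range.2 (Nat.lt_succ_of_le (card_filter_le _ _))
    _ ≤ _ := by rw [card_range]; omega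

end FA.PolyPartition
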