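import Fermat.Agent.BorsukUlam.Sphere
import Mathlib.Algebra.MvPolynomial.Degrees
import Mathlib.Algebra.MvPolynomial.Eval
import Mathlib.Data.Nat.Sqrt
import Mathlib.Analysis.Normed.Module.FiniteDimension

/-!
# Polynomial partitioning of the plane

Finitely many finite sets, fewer than the dimension of a space of functions, are bisected by the
zero set of a nonzero member (Stone and Tukey). Iterated with polynomials, this cuts a set of points
into `4 ^ k` sign classes of at most a `4 ^ (-k)` part each, with total degree `≤ 6 · 2 ^ k`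
(Guth and Katz).
-/

set_option autoImplicit false

noncomputable section

namespace FA.PolyPartition

open Finset Filter Topology MvPolynomial

/-- `t ↦ max (-1) (min 1 t)`. -/
def clamp (t : ℝ) : ℝ := max (-1) (min 1 t)

theorem clamp_neg (t : ℝ) : clamp (-t) = -clamp t := by
  simp only [clamp]
  rcases le_total t (-1) with h | h <;> rcases le_total t 1 with h' | h' <;>
    simp [min_def, max_def] <;> split_ifs <;> linarith

theorem neg_one_le_clamp (t : ℝ) : -1 ≤ clamp t := le_max_left _ _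

theorem clamp_le_one (t : ℝ) : clamp t ≤ 1 := max_le (by norm_num) (min_le_left _ _)

theorem clamp_of_one_le {t : ℝ} (h : 1 ≤ t) : clamp t = 1 := by
  rw [clamp, min_eq_left h, max_eq_right (by norm_num)]

/-- **The discrete ham sandwich theorem.** -/
theorem exists_bisecting {V α : Type*} [NormedAddCommGroup V] [NormedSpace ℝ V]
    [FiniteDimensional ℝ V] {n : ℕ} (hn : n < Module.finrank ℝ V) (S : Fin n → Finset α)
    (ev : α → V →ₗ[ℝ] ℝ) :
    ∃ v : V, v ≠ 0 ∧ ∀ i, 2 * ((S i).filter fun x => 0 < ev x v).card ≤ (S i).card ∧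
      2 * ((S i).filter fun x => ev x v < 0).card ≤ (S i).card := by
  classical
  obtain ⟨F, hF⟩ : ∃ F : ℕ → V → Fin n → ℝ,
      F = fun (k : ℕ) v i => ∑ x ∈ S i, clamp ((k : ℝ) * ev x v) := ⟨_, rfl⟩
  have hzero : ∀ k, ∃ v ∈ Metric.sphere (0 : V) 1, F k v = 0 := by
    intro k
    refine Fermat.Agent.BorsukUlam.exists_zero_sphere
      (by rw [Module.finrank_fintype_fun_eq_card, Fintype.card_fin]; exact hn) ?_ fun v _ => ?_
    · rw [hF]
      refine (continuous_pi fun i => continuous_finsetSum _ fun x _ => ?_).continuousOn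
      exact continuous_const.max (continuous_const.min
        (continuous_const.mul (ev x).continuous_of_finiteDimensional))
    · rw [hF]
      funext i
      simp only [map_neg, mul_neg, clamp_neg, sum_neg_distrib, Pi.neg_apply]
  choose v hv hv0 using hzero
  obtain ⟨a, ha, φ, hφ, hlim⟩ := (isCompact_sphere (0 : V) 1).tendsto_subseq hv
  refine ⟨a, ?_, fun i => ?_⟩
  · intro h0
    simp [h0] at ha
  have hev : ∀ x, Tendsto (fun k => ev x (v (φ k))) atTop (𝓝 (ev x a)) := fun x =>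
    ((ev x).continuous_of_finiteDimensional.tendsto a).comp hlim
  have hbig : ∀ x, 0 < ev x a → ∀ᶠ k in atTop, clamp ((φ k : ℝ) * ev x (v (φ k))) = 1 := by
    intro x hx
    have h := ((tendsto_natCast_atTop_atTop (R := ℝ)).comp hφ.tendsto_atTop).atTop_mul_pos hx (hev x)
    exact (h.eventually_ge_atTop 1).mono fun k hk => clamp_of_one_le hk
  have hsmall : ∀ x, ev x a < 0 → ∀ᶠ k in atTop, clamp ((φ k : ℝ) * ev x (v (φ k))) = -1 := by
    intro x hx
    have h := ((tendsto_natCast_atTop_atTop (R := ℝ)).comp hφ.tendsto_atTop).atTop_mul_pos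
      (neg_pos.2 hx) ((hev x).neg)
    refine (h.eventually_ge_atTop 1).mono fun k hk => ?_
    simp only [Function.comp_apply, mul_neg] at hk
    rw [← neg_inj, ← clamp_neg, neg_neg, clamp_of_one_le hk]
  obtain ⟨k, hk1, hk2⟩ := (((eventually_all_finset ((S i).filter fun x => 0 < ev x a)).2
    fun x hx => hbig x (mem_filter.1 hx).2).and
      ((eventually_all_finset ((S i).filter fun x => ev x a < 0)).2
        fun x hx => hsmall x (mem_filter.1 hx).2)).exists
  have hsum : ∑ x ∈ S i, clamp ((φ k : ℝ) * ev x (v (φ k))) = 0 := by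
    have := congrFun (hv0 (φ k)) i
    rw [hF] at this
    exact this
  have e1 : ∀ b : ℝ, ∑ x ∈ (S i).filter (fun x => 0 < ev x a), b =
      ((S i).filter fun x => 0 < ev x a).card * b := fun b => by simp
  have e2 : ∀ b : ℝ, ∑ x ∈ (S i).filter (fun x => ev x a < 0), b =
      ((S i).filter fun x => ev x a < 0).card * b := fun b => by simp
  constructor
  · have h2 : ∑ x ∈ S i, ((if 0 < ev x a then (2 : ℝ) else 0) - 1) ≤ 0 := by
      refine le_trans (sum_le_sum fun x hx => ?_) hsum.le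
      split_ifs with h
      · rw [hk1 x (mem_filter.2 ⟨hx, h⟩)]; norm_num
      · linarith [neg_one_le_clamp ((φ k : ℝ) * ev x (v (φ k)))]
    rw [sum_sub_distrib, ← sum_filter, e1, sum_const, nsmul_eq_mul, mul_one] at h2
    have : ((2 * ((S i).filter fun x => 0 < ev x a).card : ℕ) : ℝ) ≤ ((S i).card : ℝ) := by
      push_cast; linarith
    exact_mod_cast this
  · have h2 : 0 ≤ ∑ x ∈ S i, (1 - (if ev x a < 0 then (2 : ℝ) else 0)) := by
      refine le_trans hsum.ge (sum_le_sum fun x hx => ?_)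
      split_ifs with h
      · rw [hk2 x (mem_filter.2 ⟨hx, h⟩)]; norm_num
      · linarith [clamp_le_one ((φ k : ℝ) * ev x (v (φ k)))]
    rw [sum_sub_distrib, ← sum_filter, e2, sum_const, nsmul_eq_mul, mul_one] at h2
    have : ((2 * ((S i).filter fun x => ev x a < 0).card : ℕ) : ℝ) ≤ ((S i).card : ℝ) := by
      push_cast; linarith
    exact_mod_cast this

/-- Points of the plane. -/
abbrev Pt := Fin 2 → ℝ

/-- Real polynomials in two variables. -/
abbrev Poly2 := MvPolynomial (Fin 2) ℝ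

/-- The exponent of `x ^ i y ^ j`. -/
def expPair (i j : ℕ) : Fin 2 →₀ ℕ := Finsupp.single 0 i + Finsupp.single 1 j

/-- **The polynomial ham sandwich theorem.** -/
theorem exists_bisecting_poly {n : ℕ} (S : Fin n → Finset Pt) :
    ∃ P : Poly2, P ≠ 0 ∧ P.totalDegree ≤ 2 * Nat.sqrt n ∧
      ∀ i, 2 * ((S i).filter fun x => 0 < eval x P).card ≤ (S i).card ∧
        2 * ((S i).filter fun x => eval x P < 0).card ≤ (S i).card := by
  classical
  obtain ⟨D, hD⟩ : ∃ D, D = Nat.sqrt n := ⟨_, rfl⟩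
  obtain ⟨toPoly, htoPoly⟩ : ∃ T : (Fin (D + 1) × Fin (D + 1) → ℝ) → Poly2,
      T = fun v => ∑ ij, monomial (expPair ij.1 ij.2) (v ij) := ⟨_, rfl⟩
  obtain ⟨ev, hev⟩ : ∃ ev : Pt → ((Fin (D + 1) × Fin (D + 1) → ℝ) →ₗ[ℝ] ℝ),
      ∀ x v, ev x v = eval x (toPoly v) :=
    ⟨fun x => ∑ ij, ((expPair ij.1 ij.2).prod fun c e => x c ^ e) • LinearMap.proj ij,
      fun x v => by
        rw [htoPoly]
        simp [LinearMap.sum_apply, map_sum, eval_monomial, mul_comm]⟩
  obtain ⟨v, hv, hbis⟩ := exists_bisecting (V := Fin (D + 1) × Fin (D + 1) → ℝ) (by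
    rw [Module.finrank_fintype_fun_eq_card, Fintype.card_prod, Fintype.card_fin, hD]
    exact Nat.lt_succ_sqrt n) S ev
  refine ⟨toPoly v, ?_, ?_, fun i => by simpa only [hev] using hbis i⟩
  · obtain ⟨ij, hij⟩ := Function.ne_iff.1 hv
    have hcoef : coeff (expPair ij.1 ij.2) (toPoly v) = v ij := by
      rw [htoPoly]
      simp only [coeff_sum, coeff_monomial]
      rw [sum_eq_single ij (fun b _ hb => if_neg fun e => hb ?_) (by simp), if_pos rfl]
      have h0 := congrFun (congrArg DFunLike.coe e) 0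
      have h1 := congrFun (congrArg DFunLike.coe e) 1
      simp [expPair] at h0 h1
      exact Prod.ext (Fin.ext h0) (Fin.ext h1)
    intro h0
    rw [h0, coeff_zero] at hcoef
    exact hij hcoef.symm
  · rw [htoPoly]
    refine totalDegree_finsetSum_le fun ij _ => (totalDegree_monomial_le _ _).trans ?_
    simp [expPair, Finsupp.sum_add_index', Finsupp.sum_single_index]
    omega

/-- The sign vector of a point. -/
def signs {j : ℕ} (P : Fin j → Poly2) (x : Pt) : Fin j → Bool :=
  fun i => decide (0 < eval x (P i))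

open Classical in
/-- The points of a sign class. -/
def cellPts {j : ℕ} (P : Fin j → Poly2) (S : Finset Pt) (σ : Fin j → Bool) : Finset Pt :=
  S.filter fun x => (∀ i, eval x (P i) ≠ 0) ∧ signs P x = σ

theorem mem_cellPts {j : ℕ} {P : Fin j → Poly2} {S : Finset Pt} {σ : Fin j → Bool} {x : Pt} :
    x ∈ cellPts P S σ ↔ x ∈ S ∧ (∀ i, eval x (P i) ≠ 0) ∧ signs P x = σ := by
  classical
  simp [cellPts]

theorem exists_step {j : ℕ} (P : Fin j → Poly2) (hP : ∀ i, P i ≠ 0) (S : Finset Pt) {M : ℕ}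
    (hM : ∀ σ, 2 ^ j * (cellPts P S σ).card ≤ M) :
    ∃ Q : Fin (j + 1) → Poly2, (∀ i, Q i ≠ 0) ∧
      ∑ i, (Q i).totalDegree ≤ ∑ i, (P i).totalDegree + 2 * Nat.sqrt (2 ^ j) ∧
        ∀ σ, 2 ^ (j + 1) * (cellPts Q S σ).card ≤ M := by
  classical
  obtain ⟨e, -⟩ : ∃ _e : (Fin j → Bool) ≃ Fin (2 ^ j), True :=
    ⟨Fintype.equivFinOfCardEq (by simp), trivial⟩
  obtain ⟨R, hR, hdeg, hbis⟩ := exists_bisecting_poly fun i => cellPts P S (e.symm i)
  refine ⟨Fin.snoc P R, fun i => ?_, ?_, fun σ => ?_⟩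
  · cases i using Fin.lastCases with
    | last => rwa [Fin.snoc_last]
    | cast i => rw [Fin.snoc_castSucc]; exact hP i
  · rw [Fin.sum_univ_castSucc]
    simp only [Fin.snoc_castSucc, Fin.snoc_last]
    omega
  obtain ⟨τ, hτ⟩ : ∃ τ : Fin j → Bool, τ = fun i => σ i.castSucc := ⟨_, rfl⟩
  obtain ⟨h1, h2⟩ := hbis (e τ)
  rw [Equiv.symm_apply_apply] at h1 h2
  have hsub : ∀ x ∈ cellPts (Fin.snoc P R) S σ,
      x ∈ cellPts P S τ ∧ eval x R ≠ 0 ∧ decide (0 < eval x R) = σ (Fin.last j) := by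
    intro x hx
    obtain ⟨h1, h2, h3⟩ := mem_cellPts.1 hx
    refine ⟨mem_cellPts.2 ⟨h1, fun i => ?_, ?_⟩, ?_, ?_⟩
    · simpa [Fin.snoc_castSucc] using h2 i.castSucc
    · rw [hτ]
      funext i
      rw [← h3]
      simp [signs, Fin.snoc_castSucc]
    · simpa [Fin.snoc_last] using h2 (Fin.last j)
    · rw [← h3]; simp [signs, Fin.snoc_last]
  have hhalf : 2 * (cellPts (Fin.snoc P R) S σ).card ≤ (cellPts P S τ).card := by
    rcases Bool.eq_false_or_eq_true (σ (Fin.last j)) with hs | hs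
    · refine le_trans (Nat.mul_le_mul_left 2 (card_le_card fun x hx => ?_)) h1
      obtain ⟨a, b, c⟩ := hsub x hx
      exact mem_filter.2 ⟨a, by simpa [hs] using c⟩
    · refine le_trans (Nat.mul_le_mul_left 2 (card_le_card fun x hx => ?_)) h2
      obtain ⟨a, b, c⟩ := hsub x hx
      rw [hs, decide_eq_false_iff_not, not_lt] at c
      exact mem_filter.2 ⟨a, lt_of_le_of_ne c b⟩
  calc 2 ^ (j + 1) * (cellPts (Fin.snoc P R) S σ).card
      = 2 ^ j * (2 * (cellPts (Fin.snoc P R) S σ).card) := by ring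
    _ ≤ 2 ^ j * (cellPts P S τ).card := Nat.mul_le_mul_left _ hhalf
    _ ≤ M := hM τ

/-- **The partitioning theorem of Guth and Katz in the plane.** -/
theorem exists_partition (S : Finset Pt) : ∀ k, ∃ P : Fin (2 * k) → Poly2, (∀ i, P i ≠ 0) ∧
    ∑ i, (P i).totalDegree ≤ 6 * 2 ^ k ∧ ∀ σ, 4 ^ k * (cellPts P S σ).card ≤ S.card := by
  intro k
  induction k with
  | zero =>
    refine ⟨fun i => absurd i.isLt (by simp), fun i => absurd i.isLt (by simp), by simp,
      fun σ => ?_⟩
    rw [pow_zero, one_mul]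
    exact card_le_card fun x hx => (mem_cellPts.1 hx).1
  | succ k ih =>
    obtain ⟨P, hP, hdeg, hcell⟩ := ih
    have e4 : (2 : ℕ) ^ (2 * k) = 4 ^ k := by rw [pow_mul]; norm_num
    obtain ⟨Q, hQ, hQdeg, hQcell⟩ := exists_step P hP S (M := S.card) (by rwa [e4])
    obtain ⟨R, hR, hRdeg, hRcell⟩ := exists_step Q hQ S hQcell
    refine ⟨R, hR, ?_, fun σ => by
      have := hRcell σ
      rwa [show (2 : ℕ) ^ (2 * k + 1 + 1) = 4 ^ (k + 1) by rw [pow_succ, pow_succ, e4, pow_succ]; ring] at this⟩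
    have h1 : Nat.sqrt (2 ^ (2 * k)) ≤ 2 ^ k := by
      rw [show 2 * k = k + k by ring, pow_add, Nat.sqrt_eq]
    have h2 : Nat.sqrt (2 ^ (2 * k + 1)) ≤ 2 * 2 ^ k := by
      refine (Nat.sqrt_le_sqrt ?_).trans (le_of_eq (Nat.sqrt_eq _))
      rw [show (2 * 2 ^ k) * (2 * 2 ^ k) = 2 ^ (2 * k + 2) by ring]
      exact Nat.pow_le_pow_right two_pos (Nat.le_succ _)
    rw [pow_succ]
    show ∑ i, (R i).totalDegree ≤ _
    omega

end FA.PolyPartition
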